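import Mathlib.RingTheory.IntegralClosure.IntegrallyClosed
import Mathlib.RingTheory.Polynomial.ScaleRoots
import Mathlib.RingTheory.Ideal.Quotient.Operations
import Mathlib.RingTheory.Nilpotent.Basic

/-!
# Cell A2 — pieces M3 / M4 in abstract form (helper373), Mathlib-only

* `exists_of_isIntegral_of_reduced` / `isIntegrallyClosed_of_reduced_fibre` (M3a):
  a domain `A` with `A / π` reduced and `A[1/π]` integrally closed is integrally closed.
* `eq_of_isIntegral_of_fraction` (M4): an integral extension `A ⊆ C` of domains with the same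
  fraction field, `A` integrally closed, is trivial.
-/

set_option autoImplicit false
set_option linter.unusedSectionVars false

namespace Fermat.Agent.A2.H373

open Polynomial

section M3a

variable {A K : Type*} [CommRing A] [IsDomain A] [Field K] [Algebra A K] [IsFractionRing A K]

/-- Elementwise form of "the fibre `A / π` is reduced". -/
def RedFibre (π : A) : Prop := ∀ (y : A) (n : ℕ), π ∣ y ^ n → π ∣ y

theorem redFibre_of_isReduced (π : A) [IsReduced (A ⧸ Ideal.span {π})] : RedFibre π := by
  intro y n h
  have h1 : (Ideal.Quotient.mk (Ideal.span {π}) y) ^ n = 0 := by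
    rw [← map_pow, Ideal.Quotient.eq_zero_iff_mem, Ideal.mem_span_singleton]
    exact h
  have h2 : IsNilpotent (Ideal.Quotient.mk (Ideal.span {π}) y) := ⟨n, h1⟩
  have h3 := h2.eq_zero
  rwa [Ideal.Quotient.eq_zero_iff_mem, Ideal.mem_span_singleton] at h3

/-- Key step: if `a = π ^ n x` with `x` integral over `A` and `n ≥ 1`, then `π ∣ a ^ d` for some
`d`. -/
theorem dvd_pow_of_isIntegral (π : A) {x : K} (hx : IsIntegral A x) {n : ℕ} (hn : 1 ≤ n) {a : A}
    (ha : algebraMap A K π ^ n * x = algebraMap A K a) : ∃ d : ℕ, π ∣ a ^ d := by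
  obtain ⟨p, hp, hpx⟩ := hx
  have hinj : Function.Injective (algebraMap A K) := IsFractionRing.injective A K
  set q := scaleRoots p (π ^ n) with hq
  have hqa : eval₂ (algebraMap A K) (algebraMap A K a) q = 0 := by
    rw [← ha, hq, ← map_pow]
    exact scaleRoots_eval₂_eq_zero (algebraMap A K) hpx
  have hqm : q.Monic := (monic_scaleRoots_iff _).mpr hp
  refine ⟨q.natDegree, ?_⟩
  have hqa' : q.eval a = 0 := by
    apply hinj
    rw [map_zero, ← hqa, eval₂_at_apply]
  rw [eval_eq_sum_range, Finset.sum_range_succ, hqm.coeff_natDegree, one_mul] at hqa'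
  have hd : a ^ q.natDegree = -∑ i ∈ Finset.range q.natDegree, q.coeff i * a ^ i := by
    rw [eq_neg_iff_add_eq_zero, add_comm]; exact hqa'
  rw [hd, dvd_neg]
  refine Finset.dvd_sum fun i hi => ?_
  have hi' := Finset.mem_range.mp hi
  rw [hq, coeff_scaleRoots, natDegree_scaleRoots] at *
  refine Dvd.dvd.mul_right (Dvd.dvd.mul_left ?_ _) _
  have : π ^ n ∣ (π ^ n) ^ (p.natDegree - i) := dvd_pow_self _ (by omega)
  exact (dvd_pow_self π (by omega : n ≠ 0)).trans this

/-- **M3a**, elementwise: with reduced fibre, an integral element of `A[1/π]` lies in `A`. -/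
theorem exists_of_isIntegral_of_reduced (π : A) (hπ : π ≠ 0) (hred : RedFibre π) {x : K}
    (hx : IsIntegral A x) (n : ℕ) (a : A)
    (ha : algebraMap A K π ^ n * x = algebraMap A K a) : ∃ b : A, algebraMap A K b = x := by
  induction n generalizing a with
  | zero => exact ⟨a, by rw [← ha, pow_zero, one_mul]⟩
  | succ n ih =>
    obtain ⟨d, hd⟩ := dvd_pow_of_isIntegral π hx (Nat.succ_le_succ (Nat.zero_le n)) ha
    obtain ⟨a', rfl⟩ := hred a d hd
    apply ih a'
    have hπK : algebraMap A K π ≠ 0 := by
      rwa [Ne, map_eq_zero_iff _ (IsFractionRing.injective A K)]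
    apply mul_left_cancel₀ hπK
    rw [← mul_assoc, ← pow_succ', ha, map_mul]

end M3a

section M3a'

variable {A : Type*} [CommRing A] [IsDomain A]

/-- **M3a**: a domain `A` with reduced fibre `A / π` such that every integral element of its
fraction field has a denominator which is a power of `π` is integrally closed. -/
theorem isIntegrallyClosed_of_reduced_fibre (π : A) (hπ : π ≠ 0) (hred : RedFibre π)
    (hloc : ∀ x : FractionRing A, IsIntegral A x →
      ∃ (n : ℕ) (a : A), algebraMap A (FractionRing A) π ^ n * x = algebraMap A (FractionRing A) a) :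
    IsIntegrallyClosed A := by
  refine (isIntegrallyClosed_iff (FractionRing A)).mpr fun {x} hx => ?_
  obtain ⟨n, a, ha⟩ := hloc x hx
  exact exists_of_isIntegral_of_reduced π hπ hred hx n a ha

end M3a'

section M4

variable {A C K : Type*} [CommRing A] [CommRing C] [Field K] [Algebra A C] [Algebra A K]
  [Algebra C K] [IsScalarTower A C K] [IsDomain A] [IsFractionRing A K] [IsIntegrallyClosed A]

/-- **M4**, abstract: if `C` is integral over `A`, `A` is integrally closed and `C` embeds in the
fraction field of `A`, then `A → C` is surjective. -/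
theorem surjective_of_isIntegral_of_fraction (hint : Algebra.IsIntegral A C)
    (hinj : Function.Injective (algebraMap C K)) : Function.Surjective (algebraMap A C) := by
  intro c
  have h1 : IsIntegral A (algebraMap C K c) := (hint.isIntegral c).map (IsScalarTower.toAlgHom A C K)
  obtain ⟨a, ha⟩ := (isIntegrallyClosed_iff K).mp inferInstance h1
  refine ⟨a, hinj ?_⟩
  rw [← ha, ← IsScalarTower.algebraMap_apply]

end M4

end Fermat.Agent.A2.H373
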