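import Mathlib.RingTheory.Valuation.ValuationSubring
import Mathlib.Tactic

/-!
# Cell A2 — route G, leaf SHEETS: a discrete valuation ring is determined by its centre (helper373)

Mathlib-only.  `le_of_same_centre`: let `B ⊆ V, V'` be a subring of a field `F = Frac B` contained
in two valuation subrings with the same centre on `B`.  If `V` is discrete with uniformiser
`W ∈ B` and the centre is generated by `W` up to a unit `s ∈ B` of `V` (`s · 𝔭 ⊆ W B`), then
`V ≤ V'`.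
-/

set_option autoImplicit false

namespace Fermat.Agent.A2.H373

section Abs

variable {F : Type*} [Field F]

theorem isUnitV_ne_nonunit (V : ValuationSubring F) {u : F} (hu0 : u ≠ 0) (hu : u⁻¹ ∈ V) :
    u ∉ V.nonunits := by
  rw [ValuationSubring.mem_nonunits_iff_or]
  rintro (h | h)
  · exact hu0 h
  · exact h hu

theorem inv_mem_of_not_nonunit (V : ValuationSubring F) {u : F} (hu : u ∉ V.nonunits) :
    u⁻¹ ∈ V := by
  rw [ValuationSubring.mem_nonunits_iff_or, not_or, not_not] at hu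
  exact hu.2

theorem ne_zero_of_not_nonunit (V : ValuationSubring F) {u : F} (hu : u ∉ V.nonunits) :
    u ≠ 0 := by
  rw [ValuationSubring.mem_nonunits_iff_or, not_or] at hu
  exact hu.1

theorem pow_succ_mul_mem_nonunits (V : ValuationSubring F) {W : F} (hW : W ∈ V.nonunits)
    (n : ℕ) {v : F} (hv : v ∈ V) : W ^ (n + 1) * v ∈ V.nonunits := by
  rw [ValuationSubring.mem_nonunits_iff] at hW ⊢
  have hW1 : V.valuation W ≤ 1 := hW.le
  have hv1 : V.valuation v ≤ 1 := (V.valuation_le_one_iff v).2 hv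
  rw [map_mul, map_pow, pow_succ]
  calc V.valuation W ^ n * V.valuation W * V.valuation v
      ≤ 1 * V.valuation W * 1 := by
        gcongr
        exact pow_le_one₀ zero_le hW1
    _ = V.valuation W := by rw [one_mul, mul_one]
    _ < 1 := hW

/-- natural-number form of discreteness on the valuation ring -/
theorem exists_nat_pow_mul (V : ValuationSubring F) {W : F} (hW : W ∈ V.nonunits)
    (hdisc : ∀ f : F, f ≠ 0 → ∃ (n : ℤ) (u : F), u ∈ V ∧ u⁻¹ ∈ V ∧ f = W ^ n * u)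
    {a : F} (ha : a ∈ V) (ha0 : a ≠ 0) :
    ∃ (n : ℕ) (u : F), u ∈ V ∧ u⁻¹ ∈ V ∧ u ≠ 0 ∧ a = W ^ n * u := by
  obtain ⟨n, u, hu, hu', hau⟩ := hdisc a ha0
  have hu0 : u ≠ 0 := by
    rintro rfl
    rw [mul_zero] at hau
    exact ha0 hau
  rcases le_or_gt 0 n with hn | hn
  · obtain ⟨k, rfl⟩ := Int.eq_ofNat_of_zero_le hn
    exact ⟨k, u, hu, hu', hu0, by rw [hau, zpow_natCast]⟩
  · exfalso
    have hW0 : W ≠ 0 := by
      rintro rfl
      rw [zero_zpow n hn.ne, zero_mul] at hau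
      exact ha0 hau
    obtain ⟨k, hk⟩ : ∃ k : ℕ, n = -((k : ℤ) + 1) := ⟨(-n - 1).toNat, by omega⟩
    have h1 : u = W ^ (k + 1) * a := by
      rw [hau, hk, zpow_neg, ← Nat.cast_succ, zpow_natCast]
      field_simp
    have h2 : u ∈ V.nonunits := by
      rw [h1]
      exact pow_succ_mul_mem_nonunits V hW k ha
    exact isUnitV_ne_nonunit V hu0 hu' h2

/-- A discrete valuation subring `V ⊇ B` with uniformiser `W ∈ B` is determined by its centre on
`B`, provided the centre is generated by `W` up to an element `s ∈ B` which is a unit of `V`. -/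
theorem le_of_same_centre (B : Subring F) (V V' : ValuationSubring F) {W : F}
    (hBV : ∀ b ∈ B, b ∈ V) (hBV' : ∀ b ∈ B, b ∈ V')
    (hW : W ∈ V.nonunits) (hW0 : W ≠ 0) (hWB : W ∈ B)
    (hdisc : ∀ f : F, f ≠ 0 → ∃ (n : ℤ) (u : F), u ∈ V ∧ u⁻¹ ∈ V ∧ f = W ^ n * u)
    (hfrac : ∀ f : F, ∃ a ∈ B, ∃ b ∈ B, b ≠ 0 ∧ f = a / b)
    (hcen : ∀ b ∈ B, b ∈ V.nonunits ↔ b ∈ V'.nonunits)
    {s : F} (hsB : s ∈ B) (hs : s ∉ V.nonunits)
    (hdiv : ∀ a ∈ B, a ∈ V.nonunits → ∃ a' ∈ B, s * a = W * a') : V ≤ V' := by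
  have hs0 : s ≠ 0 := ne_zero_of_not_nonunit V hs
  have hsV : s ∈ V := hBV s hsB
  have hsinv : s⁻¹ ∈ V := inv_mem_of_not_nonunit V hs
  have key : ∀ n : ℕ, ∀ a ∈ B, ∀ u : F, u ∈ V → u⁻¹ ∈ V → u ≠ 0 → a = W ^ n * u →
      ∃ c ∈ B, c ∉ V.nonunits ∧ s ^ n * a = W ^ n * c := by
    intro n
    induction n with
    | zero =>
      intro a ha u hu hu' hu0 hau
      rw [pow_zero, one_mul] at hau
      refine ⟨a, ha, ?_, by simp⟩
      rw [hau]
      exact isUnitV_ne_nonunit V hu0 hu'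
    | succ n ih =>
      intro a ha u hu hu' hu0 hau
      have hanu : a ∈ V.nonunits := by
        rw [hau]
        exact pow_succ_mul_mem_nonunits V hW n hu
      obtain ⟨a', ha', haa'⟩ := hdiv a ha hanu
      have ha'eq : a' = W ^ n * (s * u) := by
        have h1 : W * a' = W * (W ^ n * (s * u)) := by
          rw [← haa', hau]; ring
        exact mul_left_cancel₀ hW0 h1
      obtain ⟨c, hc, hcn, hca⟩ := ih a' ha' (s * u) (V.mul_mem _ _ hsV hu)
        (by rw [mul_inv]; exact V.mul_mem _ _ hsinv hu') (mul_ne_zero hs0 hu0) ha'eq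
      refine ⟨c, hc, hcn, ?_⟩
      calc s ^ (n + 1) * a = s ^ n * (s * a) := by ring
        _ = s ^ n * (W * a') := by rw [haa']
        _ = W * (s ^ n * a') := by ring
        _ = W * (W ^ n * c) := by rw [hca]
        _ = W ^ (n + 1) * c := by ring
  intro f hf
  by_cases hf0 : f = 0
  · rw [hf0]; exact V'.zero_mem
  obtain ⟨a, ha, b, hb, hb0, hfab⟩ := hfrac f
  have ha0 : a ≠ 0 := by
    rintro rfl
    rw [zero_div] at hfab
    exact hf0 hfab
  obtain ⟨n, u, hu, hu', hu0, hau⟩ := exists_nat_pow_mul V hW hdisc (hBV a ha) ha0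
  obtain ⟨k, v, hv, hv', hv0, hbv⟩ := exists_nat_pow_mul V hW hdisc (hBV b hb) hb0
  have hkn : k ≤ n := by
    by_contra hcon
    rw [not_le] at hcon
    obtain ⟨j, hj⟩ : ∃ j : ℕ, k = n + (j + 1) := ⟨k - n - 1, by omega⟩
    have h1 : W ^ (j + 1) * f = u * v⁻¹ := by
      rw [hfab, hau, hbv, hj]
      field_simp
      ring
    have h2 : W ^ (j + 1) * f ∈ V.nonunits := pow_succ_mul_mem_nonunits V hW j hf
    rw [h1] at h2
    refine isUnitV_ne_nonunit V (mul_ne_zero hu0 (inv_ne_zero hv0)) ?_ h2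
    rw [mul_inv, inv_inv]
    exact V.mul_mem _ _ hu' hv
  obtain ⟨c, hc, hcn, hca⟩ := key n a ha u hu hu' hu0 hau
  obtain ⟨d, hd, hdn, hdb⟩ := key k b hb v hv hv' hv0 hbv
  have hs' : s ∉ V'.nonunits := fun h => hs ((hcen s hsB).2 h)
  have hd' : d ∉ V'.nonunits := fun h => hdn ((hcen d hd).2 h)
  have hd0 : d ≠ 0 := ne_zero_of_not_nonunit V hdn
  obtain ⟨j, hj⟩ : ∃ j : ℕ, n = k + j := ⟨n - k, by omega⟩
  have hfeq : f = W ^ j * c * s ^ k * (s ^ n)⁻¹ * d⁻¹ := by
    have h1 : a = W ^ n * c / s ^ n := by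
      rw [← hca]; field_simp
    have h2 : b = W ^ k * d / s ^ k := by
      rw [← hdb]; field_simp
    rw [hfab, h1, h2, hj]
    field_simp
    ring
  rw [hfeq, ← inv_pow]
  have hsV' : s ∈ V' := hBV' s hsB
  have hsinv' : s⁻¹ ∈ V' := inv_mem_of_not_nonunit V' hs'
  have hdinv' : d⁻¹ ∈ V' := inv_mem_of_not_nonunit V' hd'
  have hWV' : W ∈ V' := hBV' W hWB
  exact V'.mul_mem _ _ (V'.mul_mem _ _ (V'.mul_mem _ _ (V'.mul_mem _ _ (pow_mem hWV' j)
    (hBV' c hc)) (pow_mem hsV' k)) (pow_mem hsinv' n)) hdinv'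

end Abs

end Fermat.Agent.A2.H373
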