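import Fermat.Agent.A2.H12.GLemmas
import Fermat.Agent.A2.H12.RootLeaf
import Fermat.Agent.A2.H373.SheetsAbs

/-!
# Cell A2 — route G, leaf SHEETS: the sheets of the base field `F` (helper373)

In the context `SSCtx` of `H12/AlgLeaves.lean`:

* `isAlgebraic_adjoin_of_finite`, `exists_div_mem` : every element of `F` is a quotient `a / b`
  of elements of `Bf`;
* `sheet_mem_of_mem` : `Bf` lies in every sheet;
* `centreOn_eq_or` : the centre of a sheet on `Bf` is one of the two components `p₁`, `p₂`
  (incomparability over `R[x]` + the Gauss condition);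
* `sheet_eq_of_centre` : a discrete sheet is determined by its centre;
* `base_sheets_finite` : `F` has finitely many (at most two) sheets.
-/

set_option autoImplicit false
set_option linter.style.haveILetI false
set_option linter.unusedSectionVars false

namespace Fermat.Agent.A2.H373

open Polynomial
open Fermat.Agent.A2
open Fermat.Agent.A2.H12 (IsSheet SSCtx BaseConclusion)

section Frac

theorem algebraMap_RF_injective {R : Type} (E : Type) {F : Type} [CommRing R] [Field E]
    [Algebra R E] [IsFractionRing R E] [Field F] [Algebra E F] [Algebra R F]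
    [IsScalarTower R E F] : Function.Injective (algebraMap R F) := by
  rw [IsScalarTower.algebraMap_eq R E F]
  exact (algebraMap E F).injective.comp (IsFractionRing.injective R E)

variable {R E F : Type} [CommRing R] [IsDomain R] [Field E] [Algebra R E]
  [IsFractionRing R E] [Field F] [Algebra E F] [Algebra R F] [IsScalarTower R E F]

/-- clearing the denominators of a polynomial over `E = Frac R` -/
theorem exists_mul_aeval_eq (x : F) (r : E[X]) :
    ∃ (d : R) (r' : R[X]), d ≠ 0 ∧ algebraMap R F d * aeval x r = aeval x r' := by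
  obtain ⟨b, hbM, hb⟩ := IsLocalization.integerNormalization_spec (nonZeroDivisors R) r
  refine ⟨b, IsLocalization.integerNormalization (nonZeroDivisors R) r,
    nonZeroDivisors.ne_zero hbM, ?_⟩
  have h := congrArg (aeval x) hb
  rw [Polynomial.aeval_map_algebraMap] at h
  rw [h, ← algebraMap_smul E b r, map_smul, algebraMap_smul, Algebra.smul_def]

/-- every element of `E(x)` is a quotient of two elements of `R[x]` -/
theorem exists_div_of_mem_adjoin (x : F) {z : F}
    (hz : z ∈ IntermediateField.adjoin E ({x} : Set F)) :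
    ∃ a ∈ Algebra.adjoin R ({x} : Set F), ∃ b ∈ Algebra.adjoin R ({x} : Set F), z = a / b := by
  obtain ⟨r, s, rfl⟩ := (IntermediateField.mem_adjoin_simple_iff E z).1 hz
  obtain ⟨d, r', hd, hr⟩ := exists_mul_aeval_eq (R := R) x r
  obtain ⟨e, s', he, hs⟩ := exists_mul_aeval_eq (R := R) x s
  have hd' : algebraMap R F d ≠ 0 := fun h =>
    hd ((map_eq_zero_iff _ (algebraMap_RF_injective E)).1 h)
  have he' : algebraMap R F e ≠ 0 := fun h =>
    he ((map_eq_zero_iff _ (algebraMap_RF_injective E)).1 h)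
  have hmem : ∀ P : R[X], aeval x P ∈ Algebra.adjoin R ({x} : Set F) := by
    intro P
    rw [Algebra.adjoin_singleton_eq_range_aeval]
    exact ⟨P, rfl⟩
  refine ⟨algebraMap R F e * aeval x r', ?_, algebraMap R F d * aeval x s', ?_, ?_⟩
  · exact Subalgebra.mul_mem _ (Subalgebra.algebraMap_mem _ _) (hmem r')
  · exact Subalgebra.mul_mem _ (Subalgebra.algebraMap_mem _ _) (hmem s')
  · rw [← hr, ← hs]
    by_cases h0 : aeval x s = 0
    · rw [h0]; simp
    · field_simp

theorem adjoin_le_adjoin_field (x : F) {a : F} (ha : a ∈ Algebra.adjoin R ({x} : Set F)) :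
    a ∈ IntermediateField.adjoin E ({x} : Set F) := by
  induction ha using Algebra.adjoin_induction with
  | mem y hy => exact IntermediateField.subset_adjoin E _ hy
  | algebraMap r =>
    rw [IsScalarTower.algebraMap_apply R E F]
    exact IntermediateField.algebraMap_mem _ _
  | add y z _ _ hy hz => exact add_mem hy hz
  | mul y z _ _ hy hz => exact mul_mem hy hz

/-- `F` is algebraic over `R[x]` if it is finite over `E(x)`. -/
theorem isAlgebraic_adjoin_of_finite (x : F)
    [FiniteDimensional (IntermediateField.adjoin E ({x} : Set F)) F] (y : F) :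
    IsAlgebraic (Algebra.adjoin R ({x} : Set F)) y := by
  classical
  set A : Subalgebra R F := Algebra.adjoin R ({x} : Set F) with hA
  set K : IntermediateField E F := IntermediateField.adjoin E ({x} : Set F) with hK
  let φ : A →+* K :=
    { toFun := fun a => ⟨a, adjoin_le_adjoin_field x a.2⟩
      map_one' := rfl
      map_mul' := fun _ _ => rfl
      map_zero' := rfl
      map_add' := fun _ _ => rfl }
  letI : Algebra A K := φ.toAlgebra
  haveI : IsScalarTower A K F := IsScalarTower.of_algebraMap_eq (fun _ => rfl)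
  have hinj : Function.Injective (algebraMap A K) := by
    intro a b hab
    have : (a : F) = b := congrArg (fun t : K => (t : F)) hab
    exact Subtype.ext this
  haveI : FaithfulSMul A K := (faithfulSMul_iff_algebraMap_injective A K).2 hinj
  haveI : IsFractionRing A K := by
    refine IsFractionRing.of_field A K (fun z => ?_)
    obtain ⟨a, ha, b, hb, h⟩ := exists_div_of_mem_adjoin (R := R) x z.2
    exact ⟨⟨a, ha⟩, ⟨b, hb⟩, Subtype.ext h⟩
  have hy : IsAlgebraic K y := Algebra.IsAlgebraic.isAlgebraic y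
  exact (IsFractionRing.isAlgebraic_iff A K F).2 hy

end Frac

section Centre

variable {R F : Type} [CommRing R] [Field F] [Algebra R F]

/-- the inclusion of a subalgebra contained in a valuation subring -/
def inclV (V : ValuationSubring F) (B : Subalgebra R F) (h : ∀ b ∈ B, b ∈ V) : B →+* V where
  toFun b := ⟨b, h b b.2⟩
  map_one' := rfl
  map_mul' _ _ := rfl
  map_zero' := rfl
  map_add' _ _ := rfl

/-- the centre of a valuation subring on a subalgebra contained in it -/
def centreOn (V : ValuationSubring F) (B : Subalgebra R F) (h : ∀ b ∈ B, b ∈ V) : Ideal B :=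
  (IsLocalRing.maximalIdeal V).comap (inclV V B h)

theorem mem_centreOn (V : ValuationSubring F) (B : Subalgebra R F) (h : ∀ b ∈ B, b ∈ V)
    (b : B) : b ∈ centreOn V B h ↔ (b : F) ∈ V.nonunits := by
  rw [centreOn, Ideal.mem_comap, ValuationSubring.mem_nonunits_iff_exists_mem_maximalIdeal]
  constructor
  · intro hb
    exact ⟨h b b.2, hb⟩
  · rintro ⟨_, hb⟩
    exact hb

instance centreOn_isPrime (V : ValuationSubring F) (B : Subalgebra R F) (h : ∀ b ∈ B, b ∈ V) :
    (centreOn V B h).IsPrime :=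
  Ideal.comap_isPrime _ _

end Centre

section Sheets

variable {R F : Type} [CommRing R] [Field F] [Algebra R F]
variable {w : R} {x : F} {B : Subalgebra R F} {V V' : ValuationSubring F}

theorem sheet_mem_of_mem (hB : ∀ f : F, f ∈ B ↔ IsIntegral (Algebra.adjoin R ({x} : Set F)) f)
    (hV : IsSheet w x V) : ∀ b ∈ B, b ∈ V := by
  intro b hb
  exact hV.chart_le (T := {x}) (by simp) ((hB b).1 hb)

theorem adjoin_le_of_hB (hB : ∀ f : F, f ∈ B ↔ IsIntegral (Algebra.adjoin R ({x} : Set F)) f) :
    Algebra.adjoin R ({x} : Set F) ≤ B := by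
  intro a ha
  rw [hB]
  exact isIntegral_algebraMap (R := Algebra.adjoin R ({x} : Set F)) (x := ⟨a, ha⟩)

/-- every element of `F` is a quotient of elements of `B` -/
theorem exists_div_mem (hB : ∀ f : F, f ∈ B ↔ IsIntegral (Algebra.adjoin R ({x} : Set F)) f)
    (halg : ∀ y : F, IsAlgebraic (Algebra.adjoin R ({x} : Set F)) y) (f : F) :
    ∃ a ∈ B, ∃ b ∈ B, b ≠ 0 ∧ f = a / b := by
  obtain ⟨y, hy0, hint⟩ := (halg f).exists_integral_multiple
  have hy0' : (y : F) ≠ 0 := fun h => hy0 (Subtype.ext h)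
  refine ⟨(y : F) * f, (hB _).2 hint, (y : F), adjoin_le_of_hB hB y.2, hy0', ?_⟩
  field_simp

/-- Gauss condition: a polynomial in `x` which is a nonunit of a sheet is divisible by `w`. -/
theorem sheet_exists_mul_of_nonunit (hV : IsSheet w x V) (P : R[X])
    (h : aeval x P ∈ V.nonunits) :
    ∃ Q : R[X], aeval x P = algebraMap R F w * aeval x Q := by
  by_cases h0 : aeval x P = 0
  · exact ⟨0, by rw [h0, map_zero, mul_zero]⟩
  have hall : ∀ i, w ∣ P.coeff i := by
    by_contra hcon
    rw [not_forall] at hcon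
    have h1 := hV.2.2.2 P hcon
    rw [ValuationSubring.mem_nonunits_iff_or] at h
    rcases h with h | h
    · exact h0 h
    · exact h h1
  obtain ⟨Q, hQ⟩ := (Polynomial.C_dvd_iff_dvd_coeff w P).2 hall
  refine ⟨Q, ?_⟩
  rw [hQ, map_mul, aeval_C]

/-- incomparability: the centre of a sheet on `B` is minimal over `w` -/
theorem centreOn_le_of_le (hB : ∀ f : F, f ∈ B ↔ IsIntegral (Algebra.adjoin R ({x} : Set F)) f)
    (hV : IsSheet w x V) (p : Ideal B) [p.IsPrime] (hw : algebraMap R B w ∈ p)
    (hle : p ≤ centreOn V B (sheet_mem_of_mem hB hV)) :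
    centreOn V B (sheet_mem_of_mem hB hV) ≤ p := by
  by_contra hnot
  obtain ⟨b, hbc, hbp⟩ := SetLike.not_le_iff_exists.1 hnot
  set A : Subalgebra R F := Algebra.adjoin R ({x} : Set F) with hA
  have hAB : A ≤ B := adjoin_le_of_hB hB
  letI : Algebra A B := (Subalgebra.inclusion hAB).toRingHom.toAlgebra
  have hint : IsIntegral A b := by
    obtain ⟨P, hPm, hP⟩ := (hB b).1 b.2
    refine ⟨P, hPm, ?_⟩
    apply Subtype.ext
    have := Polynomial.hom_eval₂ P (algebraMap A B) (B.val : B →+* F) b
    rw [show ((B.val : B →+* F) (eval₂ (algebraMap A B) b P) : F)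
      = ((eval₂ (algebraMap A B) b P : B) : F) from rfl] at this
    rw [this]
    exact hP
  have hlt := Ideal.comap_lt_comap_of_integral_mem_sdiff hle ⟨hbc, hbp⟩ hint
  obtain ⟨a, hac, hap⟩ := SetLike.exists_of_lt hlt
  rw [Ideal.mem_comap] at hac hap
  rw [mem_centreOn] at hac
  have haF : ((algebraMap A B a : B) : F) = (a : F) := rfl
  obtain ⟨P, hP⟩ : ∃ P : R[X], aeval x P = (a : F) := by
    have h1 : (a : F) ∈ Algebra.adjoin R ({x} : Set F) := a.2
    rw [Algebra.adjoin_singleton_eq_range_aeval] at h1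
    exact h1
  rw [haF, ← hP] at hac
  obtain ⟨Q, hQ⟩ := sheet_exists_mul_of_nonunit hV P hac
  apply hap
  have hQB : aeval x Q ∈ B := hAB (by
    show aeval x Q ∈ Algebra.adjoin R ({x} : Set F)
    rw [Algebra.adjoin_singleton_eq_range_aeval]
    exact ⟨Q, rfl⟩)
  have : algebraMap A B a = algebraMap R B w * ⟨aeval x Q, hQB⟩ := by
    apply Subtype.ext
    rw [haF, ← hP, hQ]
    rfl
  rw [this]
  exact Ideal.mul_mem_right _ _ hw

/-- the centre of a sheet on a semistable chart is one of the two components -/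
theorem centreOn_eq_or (hB : ∀ f : F, f ∈ B ↔ IsIntegral (Algebra.adjoin R ({x} : Set F)) f)
    (hV : IsSheet w x V) (C : SSChart w B) :
    centreOn V B (sheet_mem_of_mem hB hV) = C.p₁ ∨
      centreOn V B (sheet_mem_of_mem hB hV) = C.p₂ := by
  have hwc : algebraMap R B w ∈ centreOn V B (sheet_mem_of_mem hB hV) := by
    rw [mem_centreOn]
    exact hV.2.2.1
  have hspan : Ideal.span {algebraMap R B w} ≤ centreOn V B (sheet_mem_of_mem hB hV) := by
    rw [Ideal.span_le, Set.singleton_subset_iff]
    exact hwc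
  have hw12 : algebraMap R B w ∈ C.p₁ ⊓ C.p₂ := by
    rw [C.inf_eq]
    exact Ideal.subset_span rfl
  rw [← C.inf_eq] at hspan
  haveI := C.prime₁
  haveI := C.prime₂
  rcases ((centreOn_isPrime V B (sheet_mem_of_mem hB hV)).inf_le).1 hspan with h | h
  · left
    exact le_antisymm (centreOn_le_of_le hB hV C.p₁ hw12.1 h) h
  · right
    exact le_antisymm (centreOn_le_of_le hB hV C.p₂ hw12.2 h) h

/-- a discrete sheet is determined by its centre on a semistable chart -/
theorem sheet_eq_of_centre (hB : ∀ f : F, f ∈ B ↔ IsIntegral (Algebra.adjoin R ({x} : Set F)) f)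
    (hfrac : ∀ f : F, ∃ a ∈ B, ∃ b ∈ B, b ≠ 0 ∧ f = a / b)
    (hw0 : algebraMap R F w ≠ 0) (hV : IsSheet w x V) (hV' : IsSheet w x V')
    (hdisc : ∀ f : F, f ≠ 0 →
      ∃ (n : ℤ) (u : F), u ∈ V ∧ u⁻¹ ∈ V ∧ f = algebraMap R F w ^ n * u)
    (hdisc' : ∀ f : F, f ≠ 0 →
      ∃ (n : ℤ) (u : F), u ∈ V' ∧ u⁻¹ ∈ V' ∧ f = algebraMap R F w ^ n * u)
    (p p' : Ideal B) (hinf : p ⊓ p' ≤ Ideal.span {algebraMap R B w}) (hnot : ¬ p' ≤ p)
    (hc : centreOn V B (sheet_mem_of_mem hB hV) = p)
    (hc' : centreOn V' B (sheet_mem_of_mem hB hV') = p) : V = V' := by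
  obtain ⟨s, hsp', hsp⟩ := SetLike.not_le_iff_exists.1 hnot
  have hBV := sheet_mem_of_mem hB hV
  have hBV' := sheet_mem_of_mem hB hV'
  have hcV : ∀ b : B, (b : F) ∈ V.nonunits ↔ b ∈ p := by
    intro b
    rw [← mem_centreOn V B hBV, hc]
  have hcV' : ∀ b : B, (b : F) ∈ V'.nonunits ↔ b ∈ p := by
    intro b
    rw [← mem_centreOn V' B hBV', hc']
  have hcen : ∀ b ∈ B.toSubring, b ∈ V.nonunits ↔ b ∈ V'.nonunits := by
    intro b hb
    rw [hcV ⟨b, hb⟩, hcV' ⟨b, hb⟩]
  have hdiv : ∀ a ∈ B.toSubring, (a : F) ∈ V.nonunits →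
      ∃ a' ∈ B.toSubring, (s : F) * a = algebraMap R F w * a' := by
    intro a ha hanu
    have hap : (⟨a, ha⟩ : B) ∈ p := (hcV ⟨a, ha⟩).1 hanu
    have h1 : s * ⟨a, ha⟩ ∈ p ⊓ p' :=
      ⟨Ideal.mul_mem_left _ _ hap, Ideal.mul_mem_right _ _ hsp'⟩
    obtain ⟨a', ha'⟩ := Ideal.mem_span_singleton'.1 (hinf h1)
    refine ⟨a', a'.2, ?_⟩
    have := congrArg (fun t : B => (t : F)) ha'
    simp only [Subalgebra.coe_mul, Subalgebra.coe_algebraMap] at this
    rw [← this, mul_comm]
  have hWB : algebraMap R F w ∈ B.toSubring := B.algebraMap_mem w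
  apply le_antisymm
  · exact le_of_same_centre B.toSubring V V' hBV hBV' hV.2.2.1 hw0 hWB hdisc hfrac hcen
      s.2 (fun h => hsp ((hcV s).1 h)) hdiv
  · exact le_of_same_centre B.toSubring V' V hBV' hBV hV'.2.2.1 hw0 hWB hdisc' hfrac
      (fun b hb => (hcen b hb).symm) s.2 (fun h => hsp ((hcV' s).1 h))
      (fun a ha hanu => hdiv a ha ((hcen a ha).2 hanu))

end Sheets

section Finite

variable {R E F : Type} [CommRing R] [IsDomain R] [IsDiscreteValuationRing R]
    [HenselianLocalRing R] [IsAlgClosed (IsLocalRing.ResidueField R)]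
    [Field E] [CharZero E] [Algebra R E] [IsFractionRing R E]
    [Field F] [Algebra E F] [Algebra R F] [IsScalarTower R E F]
    {w : R} {q m : ℕ} {x : F} {Bf Bi : Subalgebra R F}
    {τ : F ≃+* F} {τE : E ≃+* E} {τR : R ≃+* R}

theorem algebraMap_w_ne_zero (ctx : SSCtx w q m x Bf Bi τ τE τR) : algebraMap R F w ≠ 0 := by
  intro h
  exact ctx.irr.ne_zero ((map_eq_zero_iff _ (algebraMap_RF_injective E)).1 h)

/-- **The base field has finitely many sheets** (at most two: the components of the chart). -/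
theorem base_sheets_finite (ctx : SSCtx w q m x Bf Bi τ τE τR) (hbase : BaseConclusion w x τ) :
    {V : ValuationSubring F | IsSheet w x V}.Finite := by
  classical
  obtain ⟨C⟩ := ctx.cf
  haveI := ctx.fin
  have hfrac := exists_div_mem ctx.hBf (isAlgebraic_adjoin_of_finite (R := R) (E := E) x)
  have hw0 := algebraMap_w_ne_zero ctx
  let f : ValuationSubring F → Prop := fun V =>
    ∀ b : Bf, (b : F) ∈ V.nonunits ↔ b ∈ C.p₁
  refine Set.Finite.of_injOn (f := f) (t := Set.univ) (fun _ _ => Set.mem_univ _) ?_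
    Set.finite_univ
  intro V hV V' hV' hff
  have hV : IsSheet w x V := hV
  have hV' : IsSheet w x V' := hV'
  have key : ∀ U : ValuationSubring F, ∀ hU : IsSheet w x U,
      (f U ↔ centreOn U Bf (sheet_mem_of_mem ctx.hBf hU) = C.p₁) := by
    intro U hU
    constructor
    · intro h
      ext b
      rw [mem_centreOn]
      exact h b
    · intro h b
      rw [← mem_centreOn U Bf (sheet_mem_of_mem ctx.hBf hU), h]
  by_cases h1 : f V
  · have h1' : f V' := by rw [← hff]; exact h1
    exact sheet_eq_of_centre ctx.hBf hfrac hw0 hV hV' (hbase.discrete V hV)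
      (hbase.discrete V' hV') C.p₁ C.p₂ C.inf_eq.le C.not_le₂₁
      ((key V hV).1 h1) ((key V' hV').1 h1')
  · have h1' : ¬ f V' := by rw [← hff]; exact h1
    have h2 : centreOn V Bf (sheet_mem_of_mem ctx.hBf hV) = C.p₂ :=
      (centreOn_eq_or ctx.hBf hV C).resolve_left (fun h => h1 ((key V hV).2 h))
    have h2' : centreOn V' Bf (sheet_mem_of_mem ctx.hBf hV') = C.p₂ :=
      (centreOn_eq_or ctx.hBf hV' C).resolve_left (fun h => h1' ((key V' hV').2 h))
    exact sheet_eq_of_centre ctx.hBf hfrac hw0 hV hV' (hbase.discrete V hV)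
      (hbase.discrete V' hV') C.p₂ C.p₁ (by rw [inf_comm]; exact C.inf_eq.le) C.not_le₁₂ h2 h2'

end Finite

end Fermat.Agent.A2.H373
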