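import Fermat.Agent.A2.H12.GLemmas
import Fermat.Agent.A2.H12.RootLeaf
import Fermat.Agent.A2.H93.CoverSplitTrans
import Fermat.Agent.A2.H373.SheetsAbs

/-!
# Cell A2 — route G, leaf SHEETS: sheets of a Kummer-split cover (helper373)

* `exists_valuationSubring_comap_eq` : a valuation subring of `F` extends to any field
  extension `L` of `F`;
* `isSheet_of_comap` : a valuation subring of `L` lying over a sheet of `F` is a sheet of `L`;
* `coverSplit_of_sheet` : the hypotheses `H93.CoverSplit` of COVER-SPLIT hold for every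
  valuation subring `W` of a Kummer-split cover lying over a discrete sheet `V` of `F`.
-/

set_option autoImplicit false
set_option linter.style.haveILetI false
set_option linter.unusedSectionVars false

namespace Fermat.Agent.A2.H373

open Polynomial
open Fermat.Agent.A2
open Fermat.Agent.A2.H12 (IsSheet SSCtx BaseConclusion)

section Ext

variable {F L : Type*} [Field F] [Field L] [Algebra F L]

/-- a valuation subring extends to every field extension -/
theorem exists_valuationSubring_comap_eq (V : ValuationSubring F) :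
    ∃ W : ValuationSubring L, W.comap (algebraMap F L) = V := by
  obtain ⟨W, hle, hloc⟩ :=
    IsLocalRing.exists_factor_valuationRing ((algebraMap F L).comp V.subtype)
  refine ⟨W, ?_⟩
  have h1 : ∀ f : F, f ∈ V → algebraMap F L f ∈ W := fun f hf => hle ⟨f, hf⟩
  ext f
  rw [ValuationSubring.mem_comap]
  constructor
  · intro hf
    by_contra hfV
    have hf0 : f ≠ 0 := by
      rintro rfl
      exact hfV V.zero_mem
    have hinv : f⁻¹ ∈ V := by
      rcases V.mem_or_inv_mem f with h | h
      · exact absurd h hfV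
      · exact h
    -- `f⁻¹` is a unit of `W`, hence of `V`
    have hunit : IsUnit (((algebraMap F L).comp V.subtype).codRestrict W.toSubring hle
        ⟨f⁻¹, hinv⟩) := by
      refine isUnit_iff_exists_inv.2 ⟨⟨algebraMap F L f, hf⟩, ?_⟩
      apply Subtype.ext
      show algebraMap F L f⁻¹ * algebraMap F L f = 1
      rw [← map_mul, inv_mul_cancel₀ hf0, map_one]
    have hunit' : IsUnit (⟨f⁻¹, hinv⟩ : V) := hloc.map_nonunit _ hunit
    obtain ⟨⟨t, ht⟩, htt⟩ := isUnit_iff_exists_inv.1 hunit'
    have h2 : f⁻¹ * t = 1 := congrArg (fun z : V => (z : F)) htt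
    have h3 : t = f := by
      have := congrArg (fun z => f * z) h2
      simp only [mul_one] at this
      rw [← this, ← mul_assoc, mul_inv_cancel₀ hf0, one_mul]
    exact hfV (h3 ▸ ht)
  · exact h1 f

end Ext

section SheetOver

variable {R F L : Type} [CommRing R] [Field F] [Algebra R F]
  [Field L] [Algebra F L] [Algebra R L] [IsScalarTower R F L]

/-- a valuation subring lying over a sheet is a sheet -/
theorem isSheet_of_comap {w : R} {x : F} {W : ValuationSubring L}
    (h : IsSheet w x (W.comap (algebraMap F L))) : IsSheet w (algebraMap F L x) W := by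
  refine ⟨?_, ?_, ?_, ?_⟩
  · intro r
    have := h.1 r
    rwa [ValuationSubring.mem_comap, ← IsScalarTower.algebraMap_apply] at this
  · have := h.2.1
    rwa [ValuationSubring.mem_comap] at this
  · have := h.2.2.1
    rwa [H12.mem_nonunits_comap, ← IsScalarTower.algebraMap_apply] at this
  · intro P hP
    have := h.2.2.2 P hP
    rwa [ValuationSubring.mem_comap, map_inv₀, ← aeval_algebraMap_apply] at this

theorem exists_sheet_over {w : R} {x : F} {V : ValuationSubring F} (hV : IsSheet w x V) :
    ∃ W : ValuationSubring L, IsSheet w (algebraMap F L x) W ∧ W.comap (algebraMap F L) = V := by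
  obtain ⟨W, hW⟩ := exists_valuationSubring_comap_eq (L := L) V
  exact ⟨W, isSheet_of_comap (by rw [hW]; exact hV), hW⟩

end SheetOver

section Bridge

variable {R F L : Type} [CommRing R] [Field F] [Algebra R F]
  [Field L] [Algebra F L] [Algebra R L] [IsScalarTower R F L]

theorem mem_of_mem_nonunits (V : ValuationSubring F) {a : F} (ha : a ∈ V.nonunits) : a ∈ V :=
  ValuationSubring.nonunits_subset ha

theorem sub_mem_nonunits (V : ValuationSubring F) {a b : F} (ha : a ∈ V.nonunits)
    (hb : b ∈ V.nonunits) : a - b ∈ V.nonunits := by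
  rw [ValuationSubring.mem_nonunits_iff] at ha hb ⊢
  exact lt_of_le_of_lt (Valuation.map_sub _ _ _) (max_lt ha hb)

/-- a nonunit of a discrete sheet is divisible by the uniformiser -/
theorem mul_inv_mem_of_disc {V : ValuationSubring F} {W : F} (hW : W ∈ V.nonunits)
    (hdisc : ∀ f : F, f ≠ 0 → ∃ (n : ℤ) (u : F), u ∈ V ∧ u⁻¹ ∈ V ∧ f = W ^ n * u)
    {f : F} (hf : f ∈ V) (hf' : f⁻¹ ∉ V) : f * W⁻¹ ∈ V := by
  have hf0 : f ≠ 0 := by
    rintro rfl
    rw [inv_zero] at hf'
    exact hf' V.zero_mem
  obtain ⟨n, u, hu, hu', hu0, hfu⟩ := exists_nat_pow_mul V hW hdisc hf hf0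
  have hW0 : W ≠ 0 := by
    rintro rfl
    rcases n with _ | n
    · rw [pow_zero, one_mul] at hfu
      rw [hfu] at hf'
      exact hf' hu'
    · rw [pow_succ, mul_zero, zero_mul] at hfu
      exact hf0 hfu
  rcases n with _ | n
  · rw [pow_zero, one_mul] at hfu
    rw [hfu] at hf'
    exact absurd hu' hf'
  · have : f * W⁻¹ = W ^ n * u := by
      rw [hfu, pow_succ]
      field_simp
    rw [this]
    exact V.mul_mem _ _ (pow_mem (mem_of_mem_nonunits V hW) n) hu

theorem exists_mul_pow_mem_of_disc {V : ValuationSubring F} {W : F} (hW : W ∈ V.nonunits)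
    (hdisc : ∀ f : F, f ≠ 0 → ∃ (n : ℤ) (u : F), u ∈ V ∧ u⁻¹ ∈ V ∧ f = W ^ n * u)
    (f : F) : ∃ k : ℕ, f * W ^ k ∈ V := by
  by_cases hf0 : f = 0
  · exact ⟨0, by rw [hf0, zero_mul]; exact V.zero_mem⟩
  obtain ⟨n, u, hu, hu', hfu⟩ := hdisc f hf0
  have hWV : W ∈ V := mem_of_mem_nonunits V hW
  rcases le_or_gt 0 n with hn | hn
  · obtain ⟨k, rfl⟩ := Int.eq_ofNat_of_zero_le hn
    refine ⟨0, ?_⟩
    rw [pow_zero, mul_one, hfu, zpow_natCast]
    exact V.mul_mem _ _ (pow_mem hWV k) hu
  · have hW0 : W ≠ 0 := by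
      rintro rfl
      rw [zero_zpow n hn.ne, zero_mul] at hfu
      exact hf0 hfu
    obtain ⟨k, hk⟩ : ∃ k : ℕ, n = -(k : ℤ) := ⟨(-n).toNat, by omega⟩
    refine ⟨k, ?_⟩
    have : f * W ^ k = u := by
      rw [hfu, hk, zpow_neg, zpow_natCast]
      field_simp
    rw [this]
    exact hu

/-- **Bridge to COVER-SPLIT**: the hypotheses of `H93.CoverSplit` at a valuation subring of a
Kummer cover lying over a discrete sheet at which the Kummer generators split. -/
theorem coverSplit_of_sheet {w : R} {x : F} {m : ℕ} (hm : 0 < m) (hmu : IsUnit (m : R))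
    {ζ : R} (hζ : IsPrimitiveRoot (algebraMap R F ζ) m)
    {V : ValuationSubring F} (hV : IsSheet w x V)
    (hdisc : ∀ f : F, f ≠ 0 →
      ∃ (n : ℤ) (u : F), u ∈ V ∧ u⁻¹ ∈ V ∧ f = algebraMap R F w ^ n * u)
    (hw0 : algebraMap R F w ≠ 0)
    {n : ℕ} {y : Fin n → L} {g c : Fin n → F} (hg0 : ∀ i, g i ≠ 0)
    (hy : ∀ i, y i ^ m = algebraMap F L (g i))
    (hgen : Algebra.adjoin F (Set.range y) = ⊤)
    (hc : ∀ i, c i ≠ 0 ∧ c i ∈ V ∧ (c i)⁻¹ ∈ V ∧ g i - c i ^ m ∈ V.nonunits)
    {W : ValuationSubring L} (hW : W.comap (algebraMap F L) = V) :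
    H93.CoverSplit V W (algebraMap R F w) m (algebraMap R F ζ) y g c := by
  have hwnu : algebraMap R F w ∈ V.nonunits := hV.2.2.1
  have hcm : ∀ i, c i ^ m ∈ V := fun i => pow_mem (hc i).2.1 m
  have hgV : ∀ i, g i ∈ V := by
    intro i
    have : g i = (g i - c i ^ m) + c i ^ m := by ring
    rw [this]
    exact V.add_mem _ _ (mem_of_mem_nonunits V (hc i).2.2.2) (hcm i)
  refine
    { ext := fun f => by rw [← hW, ValuationSubring.mem_comap]
      w_inv_notMem := ?_
      w_gen := fun f hf hf' => mul_inv_mem_of_disc hwnu hdisc hf hf'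
      w_disc := fun f => exists_mul_pow_mem_of_disc hwnu hdisc f
      zeta := hζ
      m_pos := hm
      m_inv := ?_
      pow_eq := hy
      g_mem := hgV
      g_ne_zero := hg0
      g_inv := ?_
      c_mem := fun i => (hc i).2.1
      cong := ?_
      gen := hgen }
  · have := hwnu
    rw [ValuationSubring.mem_nonunits_iff_or] at this
    rcases this with h | h
    · exact absurd h hw0
    · exact h
  · obtain ⟨u, hu⟩ := hmu
    have h1 : (m : F) = algebraMap R F (u : R) := by rw [hu, map_natCast]
    have h2 : (m : F)⁻¹ = algebraMap R F ((u⁻¹ : Rˣ) : R) := by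
      rw [h1]
      apply inv_eq_of_mul_eq_one_left
      rw [← map_mul, Units.inv_mul, map_one]
    rw [h2]
    exact hV.1 _
  · intro i
    apply inv_mem_of_not_nonunit
    intro hgnu
    have h1 : c i ^ m ∈ V.nonunits := by
      have : c i ^ m = g i - (g i - c i ^ m) := by ring
      rw [this]
      exact sub_mem_nonunits V hgnu (hc i).2.2.2
    refine isUnitV_ne_nonunit V (pow_ne_zero m (hc i).1) ?_ h1
    rw [← inv_pow]
    exact pow_mem (hc i).2.2.1 m
  · intro i
    by_cases h0 : g i - c i ^ m = 0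
    · rw [h0, zero_mul]; exact V.zero_mem
    · refine mul_inv_mem_of_disc hwnu hdisc (mem_of_mem_nonunits V (hc i).2.2.2) ?_
      have := (hc i).2.2.2
      rw [ValuationSubring.mem_nonunits_iff_or] at this
      rcases this with h | h
      · exact absurd h h0
      · exact h

end Bridge

end Fermat.Agent.A2.H373
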