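import Fermat.Agent.A2.H12.AlgLeavesU
import Fermat.Agent.A2.H12.RootLeaf
import Fermat.Agent.A2.H373.SheetsBase
import Fermat.Agent.A2.H373.SheetsCover

/-!
# Cell A2 — route G: leaf SHEETS (helper373)

`sheetsLeafU_of_base : H12.BaseLeaf → H12.SheetsLeafU` — the corrected leaf **SHEETS** of
`H12/AlgLeavesU.lean` in its EXACT shape, from the leaf **BASE** alone (the leaf **ROOT** is
`H12.rootLeaf`).

For a Kummer-split cover `L = F(g_i^{1/m})` in the context `SSCtx`:

* `finite`      : `F` has at most two sheets (`base_sheets_finite`), and over each of them there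
                  are finitely many sheets of `L` (`H93.CoverSplit.finite_setOf`);
* `exists_over` : Chevalley extension (`exists_sheet_over`);
* `unif`, `resdeg`, `free`, `trans` : COVER-SPLIT of helper93 (`H93.CoverSplit`), whose hypotheses
  are checked in `coverSplit_of_sheet`.

`sheetsConclusion_of_data` is the same statement with the Kummer data `(y, g)` explicit.
-/

set_option autoImplicit false
set_option linter.style.haveILetI false
set_option linter.unusedSectionVars false

namespace Fermat.Agent.A2.H373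

open Polynomial
open Fermat.Agent.A2
open Fermat.Agent.A2.H12 (IsSheet SSCtx BaseConclusion SheetsConclusion)

section Main

variable {R E F : Type} [CommRing R] [IsDomain R] [IsDiscreteValuationRing R]
    [HenselianLocalRing R] [IsAlgClosed (IsLocalRing.ResidueField R)]
    [Field E] [CharZero E] [Algebra R E] [IsFractionRing R E]
    [Field F] [Algebra E F] [Algebra R F] [IsScalarTower R E F]
    {w : R} {q m : ℕ} {x : F} {Bf Bi : Subalgebra R F}
    {τ : F ≃+* F} {τE : E ≃+* E} {τR : R ≃+* R}

/-- **SHEETS** with explicit Kummer data. -/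
theorem sheetsConclusion_of_data (ctx : SSCtx w q m x Bf Bi τ τE τR)
    (hbase : BaseConclusion w x τ)
    (L : Type) [Field L] [Algebra F L] [Algebra R L] [IsScalarTower R F L]
    [FiniteDimensional F L] [IsGalois F L]
    {n : ℕ} (y : Fin n → L) (g : Fin n → F) (hg0 : ∀ i, g i ≠ 0)
    (hy : ∀ i, y i ^ m = algebraMap F L (g i))
    (hgen : IntermediateField.adjoin F (Set.range y) = ⊤)
    (hsplit : ∀ i, ∀ V : ValuationSubring F, IsSheet w x V →
      ∃ u : F, u ≠ 0 ∧ u ∈ V ∧ u⁻¹ ∈ V ∧ g i - u ^ m ∈ V.nonunits) :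
    SheetsConclusion L w x := by
  classical
  -- the constants
  have hmu : IsUnit (m : R) := H12.isUnit_natCast_of_not_dvd ctx.qprime ctx.qmem ctx.qm
  obtain ⟨ζ, hζ, -⟩ := (H12.rootLeaf w q m x Bf Bi τ τE τR ctx).root
  have hinj : Function.Injective (algebraMap R F) := algebraMap_RF_injective E
  have hζF : IsPrimitiveRoot (algebraMap R F ζ) m := hζ.map_of_injective hinj
  have hw0 : algebraMap R F w ≠ 0 := algebraMap_w_ne_zero ctx
  have hφw0 : algebraMap F L (algebraMap R F w) ≠ 0 := by
    intro h
    exact hw0 ((map_eq_zero_iff _ (algebraMap F L).injective).1 h)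
  have hRL : algebraMap R L w = algebraMap F L (algebraMap R F w) :=
    IsScalarTower.algebraMap_apply R F L w
  -- generation as an algebra
  have hgen' : Algebra.adjoin F (Set.range y) = ⊤ := by
    have h1 := IntermediateField.adjoin_toSubalgebra (F := F) (E := L) (Set.range y)
    rw [hgen] at h1
    rw [← h1]
    rfl
  -- the residual roots
  have hex : ∀ V : ValuationSubring F, ∃ c : Fin n → F, IsSheet w x V →
      ∀ i, c i ≠ 0 ∧ c i ∈ V ∧ (c i)⁻¹ ∈ V ∧ g i - c i ^ m ∈ V.nonunits := by
    intro V
    by_cases hV : IsSheet w x V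
    · choose c hc using fun i => hsplit i V hV
      exact ⟨c, fun _ => hc⟩
    · exact ⟨fun _ => 0, fun h => absurd h hV⟩
  choose c hc using hex
  -- COVER-SPLIT at every sheet
  have D : ∀ (V : ValuationSubring F) (W : ValuationSubring L), IsSheet w x V →
      W.comap (algebraMap F L) = V →
      H93.CoverSplit V W (algebraMap R F w) m (algebraMap R F ζ) y g (c V) :=
    fun V W hV hW => coverSplit_of_sheet ctx.mpos hmu hζF hV (hbase.discrete V hV) hw0 hg0 hy
      hgen' (hc V hV) hW
  have D' : ∀ W : ValuationSubring L, IsSheet w (algebraMap F L x) W →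
      H93.CoverSplit (W.comap (algebraMap F L)) W (algebraMap R F w) m (algebraMap R F ζ) y g
        (c (W.comap (algebraMap F L))) :=
    fun W hW => D _ W (H12.IsSheet.comap_algebraMap hW) rfl
  refine ⟨?_, ?_, ?_, ?_, ?_, ?_⟩
  · -- finite
    have hfin := base_sheets_finite ctx hbase
    refine (Set.Finite.biUnion hfin (fun V _ =>
      H93.CoverSplit.finite_setOf (L := L) V (algebraMap R F w) m (algebraMap R F ζ) y g
        (c V))).subset ?_
    intro W hW
    rw [Set.mem_iUnion₂]
    exact ⟨W.comap (algebraMap F L), H12.IsSheet.comap_algebraMap hW, D' W hW⟩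
  · -- exists_over
    intro V hV
    exact exists_sheet_over hV
  · -- unif
    intro W hW a ha
    by_cases ha0 : a = 0
    · exact ⟨0, W.zero_mem, by rw [ha0, mul_zero]⟩
    have haW : a ∈ W := mem_of_mem_nonunits W ha
    have hainv : a⁻¹ ∉ W := by
      rw [ValuationSubring.mem_nonunits_iff_or] at ha
      rcases ha with h | h
      · exact absurd h ha0
      · exact h
    refine ⟨a * (algebraMap F L (algebraMap R F w))⁻¹, (D' W hW).mul_inv_mem haW hainv, ?_⟩
    rw [hRL]
    field_simp
  · -- resdeg
    intro W hW b hb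
    obtain ⟨a, -, ha⟩ := (D' W hW).exists_sub_mem hb
    refine ⟨a, ?_⟩
    have h1 : b - algebraMap F L a =
        ((b - algebraMap F L a) * (algebraMap F L (algebraMap R F w))⁻¹) *
          algebraMap R L w := by
      rw [hRL]
      field_simp
    rw [h1]
    exact H12.mul_mem_nonunits W hW.2.2.1 ha
  · -- trans
    intro W W' hW hW' hcomap
    have D1 := D' W hW
    have D2 := D' W' hW'
    rw [← hcomap] at D2
    obtain ⟨σ, hσ⟩ := D1.exists_comap_eq D2
    refine ⟨σ.symm, fun b => ?_⟩
    rw [← hσ, ValuationSubring.mem_comap]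
    show b ∈ W ↔ σ (σ.symm b) ∈ W
    rw [AlgEquiv.apply_symm_apply]
  · -- free
    intro W hW σ hσ
    exact (D' W hW).eq_one_of_map_eq σ hσ

end Main

/-- **Leaf SHEETS (corrected shape `SheetsLeafU`) from leaf BASE.** -/
theorem sheetsLeafU_of_base (hBase : H12.BaseLeaf) : H12.SheetsLeafU := by
  intro R E F _ _ _ _ _ _ _ _ _ _ _ _ _ w q m x Bf Bi τ τE τR ctx L _ _ _ _ hK
  have hbase := hBase w q m x Bf Bi τ τE τR ctx
  obtain ⟨n, y, g, hg0, hy, hgen, -, hsplit⟩ := hK.gen
  haveI := hK.finite
  haveI := hK.galois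
  exact sheetsConclusion_of_data ctx hbase L y g hg0 hy hgen hsplit

end Fermat.Agent.A2.H373
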