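import Fermat.Agent.A2.H373.SplitNorm
import Mathlib.RingTheory.Polynomial.Cyclotomic.Basic

/-!
# A2 / route G, obligations C2 (COVER-SPLIT) and C5 (TRIV)   (helper373)

Mathlib-only.  Setting (`KummerSplit V w m ζ y g c`):

* `F ⊆ L` fields, `V` a discrete valuation subring of `F` with uniformiser `w` (`IsUnif V w`);
* `m` a unit of `V`, `ζ ∈ F` a primitive `m`-th root of unity;
* `L = F[y_i : i ∈ κ]`, `y_i ^ m = g_i ∈ Vˣ`, and `g_i ≡ c_i ^ m mod 𝔪_V` (`c_i ∈ V`):
  the residues of the `g_i` are `m`-th powers.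

Results, for every valuation subring `W` of `L` with `W ∩ F = V` (`Over V W`):

* `KummerSplit.exists_type`   : `y_i ≡ c_i ζ^{a_i} mod 𝔪_W` for some `a_i < m` (the *type* of `W`);
* `KummerSplit.eq_of_type`    : `W` is DETERMINED by its type;
* `KummerSplit.finite`        : for finite `κ` there are finitely many `W` over `V`;
* `KummerSplit.residue`       : `W = V + 𝔪_W`                 (`f = 1`);
* `KummerSplit.residue_pow`   : `W = V + wⁿ W` for all `n`;
* `KummerSplit.unramified`    : `𝔪_W = w W`                   (`e = 1`);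
* `KummerSplit.free`          : `σ ∈ Aut(L/F)`, `σ 𝔪_W ⊆ 𝔪_W` ⟹ `σ = 1`   (`hfree` of `H12.wallG`);
* `KummerSplit.triv`          : `τ̃ ∈ Aut(L)`, `τ̃ 𝔪_W ⊆ 𝔪_W`, `τ̃ ≡ id` on `V` mod `𝔪_W`
                                 ⟹ `τ̃ b ≡ b mod 𝔪_W` for all `b ∈ W`       (`h_triv`, C5).
-/

set_option autoImplicit false

namespace Fermat.Agent.A2.H373

variable {F L : Type*} [Field F] [Field L] [Algebra F L]

local notation "ι" => algebraMap F L

theorem Over.val_lt_one_iff {V : ValuationSubring F} {W : ValuationSubring L} (h : Over V W)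
    (a : F) : W.valuation (ι a) < 1 ↔ V.valuation a < 1 := by
  by_cases ha : a = 0
  · simp [ha]
  have hW0 : 0 < W.valuation (ι a) := zero_lt_iff.2 (h.val_ne_zero ha)
  have hV0 : 0 < V.valuation a := zero_lt_iff.2 ((Valuation.ne_zero_iff _).2 ha)
  have e1 : W.valuation (ι a) < 1 ↔ ¬ ι a⁻¹ ∈ W := by
    rw [← ValuationSubring.valuation_le_one_iff, map_inv₀, map_inv₀, inv_le_one₀ hW0, not_le]
  have e2 : V.valuation a < 1 ↔ ¬ a⁻¹ ∈ V := by
    rw [← ValuationSubring.valuation_le_one_iff, map_inv₀, inv_le_one₀ hV0, not_le]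
  rw [e1, e2, h a⁻¹]

/-- Hypotheses of COVER-SPLIT. -/
structure KummerSplit (V : ValuationSubring F) (w : F) (m : ℕ) (ζ : F) {κ : Type*}
    (y : κ → L) (g c : κ → F) : Prop where
  unif : IsUnif V w
  m_ne : (m : F) ≠ 0
  m_inv : (m : F)⁻¹ ∈ V
  prim : IsPrimitiveRoot ζ m
  pow : ∀ i, y i ^ m = algebraMap F L (g i)
  g_ne : ∀ i, g i ≠ 0
  g_mem : ∀ i, g i ∈ V
  g_inv : ∀ i, (g i)⁻¹ ∈ V
  c_mem : ∀ i, c i ∈ V
  cong : ∀ i, V.valuation (g i - c i ^ m) < 1
  gen : Algebra.adjoin F (Set.range y) = ⊤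

namespace KummerSplit

variable {V : ValuationSubring F} {w : F} {m : ℕ} {ζ : F} {κ : Type*}
  {y : κ → L} {g c : κ → F}

section Base

variable (S : KummerSplit V w m ζ y g c)
include S

theorem m_ne_zero : m ≠ 0 := by
  rintro rfl
  exact S.m_ne (by simp)

theorem m_pos : 0 < m := Nat.pos_of_ne_zero S.m_ne_zero

theorem val_g (i : κ) : V.valuation (g i) = 1 := by
  have h1 : V.valuation (g i) ≤ 1 := (ValuationSubring.valuation_le_one_iff _ _).2 (S.g_mem i)
  have h2 : V.valuation (g i)⁻¹ ≤ 1 := (ValuationSubring.valuation_le_one_iff _ _).2 (S.g_inv i)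
  rw [map_inv₀] at h2
  have hpos : 0 < V.valuation (g i) := zero_lt_iff.2 ((Valuation.ne_zero_iff _).2 (S.g_ne i))
  exact le_antisymm h1 ((inv_le_one₀ hpos).1 h2)

theorem val_c (i : κ) : V.valuation (c i) = 1 := by
  have h1 : V.valuation (c i ^ m) = 1 := by
    have e : c i ^ m = g i + -(g i - c i ^ m) := by ring
    rw [e, Valuation.map_add_eq_of_lt_left, S.val_g]
    rw [Valuation.map_neg, S.val_g]
    exact S.cong i
  rw [map_pow] at h1
  exact (pow_eq_one_iff_of_nonneg zero_le S.m_ne_zero).1 h1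

theorem val_zeta : V.valuation ζ = 1 := by
  have h1 : V.valuation (ζ ^ m) = 1 := by rw [S.prim.pow_eq_one, map_one]
  rw [map_pow] at h1
  exact (pow_eq_one_iff_of_nonneg zero_le S.m_ne_zero).1 h1

/-- the constants `d = c_i ζ^a` -/
theorem val_d (i : κ) (a : ℕ) : V.valuation (c i * ζ ^ a) = 1 := by
  rw [map_mul, map_pow, S.val_c, S.val_zeta, one_pow, one_mul]

theorem d_ne_zero (i : κ) (a : ℕ) : c i * ζ ^ a ≠ 0 := by
  intro h
  have := S.val_d i a
  rw [h, map_zero] at this
  exact zero_ne_one this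

theorem d_mem (i : κ) (a : ℕ) : c i * ζ ^ a ∈ V := by
  rw [← ValuationSubring.valuation_le_one_iff, S.val_d]

theorem d_inv_mem (i : κ) (a : ℕ) : (c i * ζ ^ a)⁻¹ ∈ V := by
  rw [← ValuationSubring.valuation_le_one_iff, map_inv₀, S.val_d, inv_one]

theorem d_pow (i : κ) (a : ℕ) : (c i * ζ ^ a) ^ m = c i ^ m := by
  rw [mul_pow, ← pow_mul, mul_comm a m, pow_mul, S.prim.pow_eq_one, one_pow, mul_one]

theorem y_ne_zero (i : κ) : y i ≠ 0 := by
  intro h
  have := S.pow i
  rw [h, zero_pow S.m_ne_zero] at this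
  exact S.g_ne i ((map_eq_zero _).1 this.symm)

variable {W : ValuationSubring L} (hW : Over V W)
include hW

theorem valW_d (i : κ) (a : ℕ) : W.valuation (ι (c i * ζ ^ a)) = 1 :=
  hW.val_eq_one (S.d_ne_zero i a) (S.d_mem i a) (S.d_inv_mem i a)

/-- **The type of `W`.** -/
theorem exists_type (i : κ) : ∃ a < m, W.valuation (y i - ι (c i * ζ ^ a)) < 1 := by
  have : NeZero m := ⟨S.m_ne_zero⟩
  have hζL : IsPrimitiveRoot (ι ζ) m := S.prim.map_of_injective (algebraMap F L).injective
  have hc0 : ι (c i) ≠ 0 := by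
    have := S.d_ne_zero i 0
    rw [pow_zero, mul_one] at this
    exact (map_ne_zero _).2 this
  have hvc : W.valuation (ι (c i)) = 1 := by
    have := S.valW_d hW i 0
    rwa [pow_zero, mul_one] at this
  set u : L := y i * (ι (c i))⁻¹ with hu
  have hum : u ^ m - 1 ^ m = ι (g i - c i ^ m) * (ι (c i) ^ m)⁻¹ := by
    rw [hu, mul_pow, S.pow i, one_pow, map_sub, map_pow, inv_pow]
    field_simp
  have hlt : W.valuation (u ^ m - 1 ^ m) < 1 := by
    rw [hum, map_mul, map_inv₀, map_pow, hvc, one_pow, inv_one, mul_one]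
    exact (hW.val_lt_one_iff _).2 (S.cong i)
  rw [IsPrimitiveRoot.pow_sub_pow_eq_prod_sub_mul u 1 S.m_pos hζL, map_prod] at hlt
  have hex : ∃ ξ ∈ Polynomial.nthRootsFinset m (1 : L), W.valuation (u - ξ * 1) < 1 := by
    by_contra hcon
    push Not at hcon
    exact absurd hlt (not_lt.2 (Finset.one_le_prod' hcon))
  obtain ⟨ξ, hξ, hξlt⟩ := hex
  rw [Polynomial.mem_nthRootsFinset S.m_pos] at hξ
  obtain ⟨a, ha, rfl⟩ := hζL.eq_pow_of_pow_eq_one hξ
  refine ⟨a, ha, ?_⟩
  have e : y i - ι (c i * ζ ^ a) = ι (c i) * (u - ι ζ ^ a * 1) := by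
    rw [hu, map_mul, map_pow]
    field_simp
  rw [e, map_mul, hvc, one_mul]
  exact hξlt

end Base

section Norm

variable (S : KummerSplit V w m ζ y g c) (a : κ → ℕ)

/-- the normalised generators attached to a type `a` -/
def normGen (_S : KummerSplit V w m ζ y g c) (a : κ → ℕ) (i : κ) : L :=
  y i * (ι (c i * ζ ^ a i))⁻¹

theorem normGen_pow (i : κ) :
    ∃ h : F, S.normGen a i ^ m = ι h := by
  refine ⟨g i * ((c i * ζ ^ a i) ^ m)⁻¹, ?_⟩
  rw [normGen, mul_pow, S.pow i, inv_pow, ← map_pow, ← map_inv₀, ← map_mul]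

theorem normGen_gen : Algebra.adjoin F (Set.range (S.normGen a)) = ⊤ := by
  rw [eq_top_iff, ← S.gen]
  refine Algebra.adjoin_le ?_
  rintro _ ⟨i, rfl⟩
  have hd : ι (c i * ζ ^ a i) ≠ 0 := (map_ne_zero _).2 (S.d_ne_zero i (a i))
  have e : y i = (c i * ζ ^ a i) • S.normGen a i := by
    rw [Algebra.smul_def, normGen]
    field_simp
  rw [e]
  exact Subalgebra.smul_mem _ (Algebra.subset_adjoin (Set.mem_range_self i)) _

theorem normGen_val {W : ValuationSubring L} (hW : Over V W)
    (ha : ∀ i, W.valuation (y i - ι (c i * ζ ^ a i)) < 1) (i : κ) :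
    W.valuation (S.normGen a i - 1) < 1 := by
  have hd : ι (c i * ζ ^ a i) ≠ 0 := (map_ne_zero _).2 (S.d_ne_zero i (a i))
  have e : S.normGen a i - 1 = (y i - ι (c i * ζ ^ a i)) * (ι (c i * ζ ^ a i))⁻¹ := by
    rw [normGen]
    field_simp
  rw [e, map_mul, map_inv₀, S.valW_d hW, inv_one, mul_one]
  exact ha i

end Norm

section Main

variable (S : KummerSplit V w m ζ y g c)
include S

/-- **`W` is determined by its type.** -/
theorem eq_of_type {W₁ W₂ : ValuationSubring L} (h₁ : Over V W₁) (h₂ : Over V W₂)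
    (a : κ → ℕ) (ha₁ : ∀ i, W₁.valuation (y i - ι (c i * ζ ^ a i)) < 1)
    (ha₂ : ∀ i, W₂.valuation (y i - ι (c i * ζ ^ a i)) < 1) : W₁ = W₂ :=
  eq_of_normalized S.unif S.m_ne S.m_inv (S.normGen a) (S.normGen_pow a) (S.normGen_gen a)
    h₁ h₂ (S.normGen_val a h₁ ha₁) (S.normGen_val a h₂ ha₂)

variable {W : ValuationSubring L} (hW : Over V W)
include hW

/-- **Residue degree one** (strong form): `W = V + wⁿ W`. -/
theorem residue_pow {b : L} (hb : b ∈ W) (n : ℕ) :
    ∃ a ∈ V, W.valuation (b - ι a) ≤ W.valuation (ι w) ^ n := by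
  choose a _ ha using fun i => S.exists_type hW i
  exact exists_sub_val_le_of_normalized S.unif S.m_ne S.m_inv (S.normGen a) (S.normGen_pow a)
    (S.normGen_gen a) hW (S.normGen_val a hW ha) hb n

/-- **Residue degree one**: `W = V + 𝔪_W`. -/
theorem residue {b : L} (hb : b ∈ W) : ∃ a ∈ V, W.valuation (b - ι a) < 1 := by
  choose a _ ha using fun i => S.exists_type hW i
  exact exists_sub_val_lt_of_normalized S.unif S.m_ne S.m_inv (S.normGen a) (S.normGen_pow a)
    (S.normGen_gen a) hW (S.normGen_val a hW ha) hb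

/-- **Ramification index one**: `𝔪_W = w W` (valuation form). -/
theorem val_le_w {b : L} (hb : W.valuation b < 1) : W.valuation b ≤ W.valuation (ι w) := by
  choose a _ ha using fun i => S.exists_type hW i
  exact val_le_w_of_normalized S.unif S.m_ne S.m_inv (S.normGen a) (S.normGen_pow a)
    (S.normGen_gen a) hW (S.normGen_val a hW ha) hb

/-- **Ramification index one**: `𝔪_W = w W`. -/
theorem unramified {b : L} (hb : W.valuation b < 1) : b * (ι w)⁻¹ ∈ W := by
  rw [← ValuationSubring.valuation_le_one_iff, map_mul, map_inv₀,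
    mul_inv_le_iff₀ (hW.val_w_pos S.unif), one_mul]
  exact S.val_le_w hW hb

/-- **Free action** (`hfree` of `H12.wallG`): an `F`-automorphism of `L` mapping `𝔪_W` into
itself is the identity. -/
theorem free (σ : L ≃ₐ[F] L) (hσ : ∀ b, W.valuation b < 1 → W.valuation (σ b) < 1) :
    σ = AlgEquiv.refl := by
  choose a _ ha using fun i => S.exists_type hW i
  have hfix : ∀ i, σ (y i) = y i := by
    intro i
    have hy' := S.normGen_val a hW ha i
    have hy'1 : W.valuation (S.normGen a i) = 1 := val_eq_one_of_sub_one hy'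
    have hσy' : W.valuation (σ (S.normGen a i) - 1) < 1 := by
      have := hσ _ hy'
      rwa [map_sub, map_one] at this
    have hy0 : y i ≠ 0 := S.y_ne_zero i
    have hd : ι (c i * ζ ^ a i) ≠ 0 := (map_ne_zero _).2 (S.d_ne_zero i (a i))
    have hn0 : S.normGen a i ≠ 0 := by
      rw [normGen]
      exact mul_ne_zero hy0 (inv_ne_zero hd)
    set ξ : L := σ (y i) * (y i)⁻¹ with hξ
    have hξm : ξ ^ m = 1 := by
      rw [hξ, mul_pow, ← map_pow, S.pow i, AlgEquiv.commutes, inv_pow, ← S.pow i]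
      exact mul_inv_cancel₀ (pow_ne_zero _ hy0)
    have hξ' : ξ = σ (S.normGen a i) * (S.normGen a i)⁻¹ := by
      rw [hξ, normGen, map_mul, map_inv₀, AlgEquiv.commutes]
      field_simp
    have hξ1 : W.valuation (ξ - 1) < 1 := by
      have e : ξ - 1 = ((σ (S.normGen a i) - 1) + -(S.normGen a i - 1)) * (S.normGen a i)⁻¹ := by
        rw [hξ']
        field_simp
        ring
      rw [e, map_mul, map_inv₀, hy'1, inv_one, mul_one]
      refine Valuation.map_add_lt _ hσy' ?_
      rw [Valuation.map_neg]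
      exact hy'
    have h1 := hW.eq_one_of_pow_eq_one S.m_ne S.m_inv hξm hξ1
    rw [hξ] at h1
    have := congrArg (· * y i) h1
    simpa [hy0] using this
  have h2 : (σ : L →ₐ[F] L) = AlgHom.id F L := by
    refine AlgHom.ext_of_adjoin_eq_top S.gen ?_
    rintro _ ⟨i, rfl⟩
    exact hfix i
  ext b
  exact congrArg (fun φ : L →ₐ[F] L => φ b) h2

/-- **C5 (TRIV).**  A ring automorphism `τ̃` of `L` which maps `𝔪_W` into itself and is trivial
modulo `𝔪_W` on `V` is trivial modulo `𝔪_W` on `W`. -/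
theorem triv (τ : L ≃+* L) (hτ : ∀ b, W.valuation b < 1 → W.valuation (τ b) < 1)
    (hτV : ∀ a ∈ V, W.valuation (τ (ι a) - ι a) < 1) {b : L} (hb : b ∈ W) :
    W.valuation (τ b - b) < 1 := by
  obtain ⟨a, ha, h⟩ := S.residue hW hb
  have e : τ b - b = (τ (b - ι a) + -(b - ι a)) + (τ (ι a) - ι a) := by
    rw [map_sub]; ring
  rw [e]
  refine Valuation.map_add_lt _ (Valuation.map_add_lt _ (hτ _ h) ?_) (hτV a ha)
  rw [Valuation.map_neg]
  exact h

end Main

section Finite

variable (S : KummerSplit V w m ζ y g c)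
include S

/-- **Finitely many sheets.** -/
theorem finite [Finite κ] : {W : ValuationSubring L | Over V W}.Finite := by
  classical
  have hex : ∀ W : {W : ValuationSubring L | Over V W}, ∀ i : κ,
      ∃ a : Fin m, (W : ValuationSubring L).valuation (y i - ι (c i * ζ ^ (a : ℕ))) < 1 := by
    intro W i
    obtain ⟨a, ha, h⟩ := S.exists_type W.2 i
    exact ⟨⟨a, ha⟩, h⟩
  choose t ht using hex
  have hinj : Function.Injective t := by
    intro W₁ W₂ h12
    apply Subtype.ext
    refine S.eq_of_type W₁.2 W₂.2 (fun i => (t W₁ i : ℕ)) (ht W₁) ?_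
    intro i
    rw [h12]
    exact ht W₂ i
  exact Set.finite_coe_iff.1 (Finite.of_injective t hinj)

end Finite

end KummerSplit

end Fermat.Agent.A2.H373
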