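import Mathlib.RingTheory.Valuation.ValuationSubring
import Mathlib.Algebra.Ring.GeomSum
import Mathlib.RingTheory.RootsOfUnity.PrimitiveRoots
import Mathlib.Tactic.FieldSimp
import Mathlib.Tactic.Ring
import Mathlib.Tactic.Linarith

/-!
# A2 / route G, obligation C2 (COVER-SPLIT), part 1: approximation by the base   (helper373)

Mathlib-only, elementary (no completions, no localisations, no noetherian hypotheses).

`F ⊆ L` fields, `V` a valuation subring of `F` which is *discrete with uniformiser* `w`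
(`IsUnif V w`), `𝒲` a set of valuation subrings of `L` lying over `V` (`Over V W`).

* `ApproxAt V w 𝒲 n b` : `b ≡ a mod wⁿ` for some `a ∈ V`, simultaneously in all `W ∈ 𝒲`;
  `Approx V w 𝒲 b` : this for all `n`;
* closure properties (`add`, `mul`, `inv` of simultaneous units, `div_w`);
* `mem_iff_approx` : if `L = F[y_i]` with all `y_i` approximable, then every `W ∈ 𝒲` is equal to
  the set of approximable elements.  In particular `𝒲` has at most one element.
-/

set_option autoImplicit false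

namespace Fermat.Agent.A2.H373

variable {F L : Type*} [Field F] [Field L] [Algebra F L]

/-- `V` is a discrete valuation subring of `F` with uniformiser `w` (elementwise form). -/
structure IsUnif (V : ValuationSubring F) (w : F) : Prop where
  mem : w ∈ V
  inv_not_mem : w⁻¹ ∉ V
  disc : ∀ x : F, x ≠ 0 → ∃ j : ℤ, x * w ^ (-j) ∈ V ∧ (x * w ^ (-j))⁻¹ ∈ V

/-- `W` lies over `V`: `W ∩ F = V`. -/
def Over (V : ValuationSubring F) (W : ValuationSubring L) : Prop :=
  ∀ a : F, algebraMap F L a ∈ W ↔ a ∈ V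

section Unif

variable {V : ValuationSubring F} {w : F}

theorem IsUnif.ne_zero (hw : IsUnif V w) : w ≠ 0 := by
  rintro rfl
  exact hw.inv_not_mem (by rw [inv_zero]; exact V.zero_mem)

theorem IsUnif.pow_mem (hw : IsUnif V w) (n : ℕ) : w ^ n ∈ V := _root_.pow_mem hw.mem n

/-- a negative power of the uniformiser is not integral -/
theorem IsUnif.zpow_mem_iff (hw : IsUnif V w) (j : ℤ) : w ^ j ∈ V ↔ 0 ≤ j := by
  constructor
  · intro h
    by_contra hj
    rw [not_le] at hj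
    apply hw.inv_not_mem
    have h2 : w ^ (-j - 1) ∈ V := by
      have : (-j - 1) = ((-j - 1).toNat : ℤ) := by
        rw [Int.toNat_of_nonneg]; omega
      rw [this, zpow_natCast]
      exact hw.pow_mem _
    have h3 : w⁻¹ = w ^ j * w ^ (-j - 1) := by
      rw [← zpow_add₀ hw.ne_zero]
      have : j + (-j - 1) = -1 := by ring
      rw [this, zpow_neg_one]
    rw [h3]
    exact V.mul_mem _ _ h h2
  · intro h
    lift j to ℕ using h
    rw [zpow_natCast]
    exact hw.pow_mem j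

/-- the maximal ideal of `V` is generated by `w` -/
theorem IsUnif.mul_inv_mem (hw : IsUnif V w) {x : F} (hx : x ∈ V) (hx' : x = 0 ∨ x⁻¹ ∉ V) :
    x * w⁻¹ ∈ V := by
  by_cases hx0 : x = 0
  · rw [hx0, zero_mul]; exact V.zero_mem
  have hx'' : x⁻¹ ∉ V := hx'.resolve_left hx0
  obtain ⟨j, hj1, hj2⟩ := hw.disc x hx0
  have hj0 : 0 ≤ j := by
    by_contra hneg
    rw [not_le] at hneg
    have : w ^ j ∈ V := by
      have h4 : w ^ j = x * (x * w ^ (-j))⁻¹ := by
        rw [mul_inv, zpow_neg, inv_inv, ← mul_assoc, mul_inv_cancel₀ hx0, one_mul]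
      rw [h4]
      exact V.mul_mem _ _ hx hj2
    exact absurd ((hw.zpow_mem_iff j).1 this) (by omega)
  have hj1' : j ≠ 0 := by
    rintro rfl
    apply hx''
    have : x⁻¹ = (x * w ^ (-(0 : ℤ)))⁻¹ := by simp
    rw [this]
    exact hj2
  have hj2' : 0 ≤ j - 1 := by omega
  have : x * w⁻¹ = w ^ (j - 1) * (x * w ^ (-j)) := by
    rw [mul_comm x (w ^ (-j)), ← mul_assoc, ← zpow_add₀ hw.ne_zero]
    have : j - 1 + -j = -1 := by ring
    rw [this, zpow_neg_one, mul_comm]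
  rw [this]
  exact V.mul_mem _ _ ((hw.zpow_mem_iff _).2 hj2') hj1

/-- every element of `F` becomes integral after multiplication by a power of `w` -/
theorem IsUnif.exists_mul_pow_mem (hw : IsUnif V w) (f : F) : ∃ k : ℕ, f * w ^ k ∈ V := by
  by_cases hf : f = 0
  · exact ⟨0, by rw [hf, zero_mul]; exact V.zero_mem⟩
  obtain ⟨j, hj1, -⟩ := hw.disc f hf
  rcases le_or_gt j 0 with hj | hj
  · refine ⟨(-j).toNat, ?_⟩
    rw [← zpow_natCast, Int.toNat_of_nonneg (by omega)]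
    exact hj1
  · refine ⟨0, ?_⟩
    rw [pow_zero, mul_one]
    have : f = w ^ j * (f * w ^ (-j)) := by
      rw [mul_comm f, ← mul_assoc, ← zpow_add₀ hw.ne_zero, add_neg_cancel, zpow_zero, one_mul]
    rw [this]
    exact V.mul_mem _ _ ((hw.zpow_mem_iff j).2 hj.le) hj1

end Unif

section Over

variable {V : ValuationSubring F} {W : ValuationSubring L} {w : F}

local notation "ι" => algebraMap F L

theorem Over.val_le_one_iff (h : Over V W) (a : F) : W.valuation (ι a) ≤ 1 ↔ a ∈ V := by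
  rw [ValuationSubring.valuation_le_one_iff]
  exact h a

theorem Over.val_le_one (h : Over V W) {a : F} (ha : a ∈ V) : W.valuation (ι a) ≤ 1 :=
  (h.val_le_one_iff a).2 ha

theorem Over.val_ne_zero (_h : Over V W) {a : F} (ha0 : a ≠ 0) : W.valuation (ι a) ≠ 0 := by
  rw [Valuation.ne_zero_iff]
  exact (map_ne_zero _).2 ha0

theorem Over.val_eq_one (h : Over V W) {a : F} (ha0 : a ≠ 0) (ha : a ∈ V) (ha' : a⁻¹ ∈ V) :
    W.valuation (ι a) = 1 := by
  have h1 : W.valuation (ι a) ≤ 1 := h.val_le_one ha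
  have h2 : W.valuation (ι a⁻¹) ≤ 1 := h.val_le_one ha'
  rw [map_inv₀, map_inv₀] at h2
  have hne : W.valuation (ι a) ≠ 0 := h.val_ne_zero ha0
  exact le_antisymm h1 ((inv_le_one₀ (zero_lt_iff.2 hne)).1 h2)

theorem Over.inv_mem_of_val_eq_one (h : Over V W) {a : F} (ha : W.valuation (ι a) = 1) :
    a⁻¹ ∈ V := by
  rw [← h.val_le_one_iff, map_inv₀, map_inv₀, ha, inv_one]

theorem Over.mem_of_val_eq_one (h : Over V W) {a : F} (ha : W.valuation (ι a) = 1) :
    a ∈ V := by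
  rw [← h.val_le_one_iff, ha]

theorem Over.val_w_ne_zero (h : Over V W) (hw : IsUnif V w) : W.valuation (ι w) ≠ 0 :=
  h.val_ne_zero hw.ne_zero

theorem Over.val_w_pos (h : Over V W) (hw : IsUnif V w) : 0 < W.valuation (ι w) :=
  zero_lt_iff.2 (h.val_w_ne_zero hw)

theorem Over.val_w_lt_one (h : Over V W) (hw : IsUnif V w) : W.valuation (ι w) < 1 := by
  refine lt_of_le_of_ne (h.val_le_one hw.mem) fun h1 => ?_
  exact hw.inv_not_mem (h.inv_mem_of_val_eq_one h1)

theorem Over.val_w_pow_le_one (h : Over V W) (hw : IsUnif V w) (n : ℕ) :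
    W.valuation (ι w) ^ n ≤ 1 :=
  pow_le_one₀ zero_le (h.val_w_lt_one hw).le

/-- nonunits of `V` have valuation `≤ v(w)` -/
theorem Over.val_le_w (h : Over V W) (hw : IsUnif V w) {a : F} (ha : W.valuation (ι a) < 1) :
    W.valuation (ι a) ≤ W.valuation (ι w) := by
  have haV : a ∈ V := (h.val_le_one_iff a).1 ha.le
  have h1 : a * w⁻¹ ∈ V := by
    refine hw.mul_inv_mem haV ?_
    by_cases ha0 : a = 0
    · exact Or.inl ha0
    · refine Or.inr fun hinv => ?_
      exact absurd (h.val_eq_one ha0 haV hinv) ha.ne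
  have h2 := h.val_le_one h1
  rw [map_mul, map_mul, map_inv₀, map_inv₀] at h2
  exact (mul_inv_le_iff₀ (h.val_w_pos hw)).1 h2 |>.trans_eq (one_mul _)

end Over

section Approx

variable (V : ValuationSubring F) (w : F) (𝒲 : Set (ValuationSubring L))

local notation "ι" => algebraMap F L

/-- `b ≡ a mod wⁿ` for some `a ∈ V`, simultaneously in all `W ∈ 𝒲`. -/
def ApproxAt (n : ℕ) (b : L) : Prop :=
  ∃ a ∈ V, ∀ W ∈ 𝒲, W.valuation (b - ι a) ≤ W.valuation (ι w) ^ n

/-- `b` can be approximated by elements of `V` to any order, simultaneously in all `W ∈ 𝒲`. -/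
def Approx (b : L) : Prop := ∀ n : ℕ, ApproxAt V w 𝒲 n b

variable {V w 𝒲}

theorem approxAt_algebraMap {a : F} (ha : a ∈ V) (n : ℕ) : ApproxAt V w 𝒲 n (ι a) :=
  ⟨a, ha, fun W _ => by rw [sub_self, map_zero]; exact zero_le⟩

theorem approx_algebraMap {a : F} (ha : a ∈ V) : Approx V w 𝒲 (ι a) :=
  fun n => approxAt_algebraMap ha n

theorem approx_zero : Approx V w 𝒲 (0 : L) := by
  have := approx_algebraMap (w := w) (𝒲 := 𝒲) V.zero_mem
  rwa [map_zero] at this

theorem approx_one : Approx V w 𝒲 (1 : L) := by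
  have := approx_algebraMap (w := w) (𝒲 := 𝒲) V.one_mem
  rwa [map_one] at this

theorem ApproxAt.add {n : ℕ} {b b' : L} (hb : ApproxAt V w 𝒲 n b) (hb' : ApproxAt V w 𝒲 n b') :
    ApproxAt V w 𝒲 n (b + b') := by
  obtain ⟨a, ha, h⟩ := hb
  obtain ⟨a', ha', h'⟩ := hb'
  refine ⟨a + a', V.add_mem _ _ ha ha', fun W hW => ?_⟩
  have : b + b' - ι (a + a') = (b - ι a) + (b' - ι a') := by rw [map_add]; ring
  rw [this]
  exact Valuation.map_add_le _ (h W hW) (h' W hW)

theorem ApproxAt.neg {n : ℕ} {b : L} (hb : ApproxAt V w 𝒲 n b) : ApproxAt V w 𝒲 n (-b) := by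
  obtain ⟨a, ha, h⟩ := hb
  refine ⟨-a, V.neg_mem _ ha, fun W hW => ?_⟩
  have : -b - ι (-a) = -(b - ι a) := by rw [map_neg]; ring
  rw [this, Valuation.map_neg]
  exact h W hW

variable (h𝒲 : ∀ W ∈ 𝒲, Over V W) (hw : IsUnif V w)
include h𝒲 hw

theorem ApproxAt.mem {n : ℕ} {b : L} (hb : ApproxAt V w 𝒲 n b) {W : ValuationSubring L}
    (hW : W ∈ 𝒲) : b ∈ W := by
  obtain ⟨a, ha, h⟩ := hb
  rw [← ValuationSubring.valuation_le_one_iff]
  have : b = (b - ι a) + ι a := by ring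
  rw [this]
  exact Valuation.map_add_le _ ((h W hW).trans ((h𝒲 W hW).val_w_pow_le_one hw n))
    ((h𝒲 W hW).val_le_one ha)

theorem ApproxAt.mono {n n' : ℕ} (hn : n' ≤ n) {b : L} (hb : ApproxAt V w 𝒲 n b) :
    ApproxAt V w 𝒲 n' b := by
  obtain ⟨a, ha, h⟩ := hb
  refine ⟨a, ha, fun W hW => (h W hW).trans ?_⟩
  exact pow_le_pow_of_le_one zero_le ((h𝒲 W hW).val_w_lt_one hw).le hn

theorem ApproxAt.mul {n : ℕ} {b b' : L} (hb : ApproxAt V w 𝒲 n b) (hb' : ApproxAt V w 𝒲 n b') :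
    ApproxAt V w 𝒲 n (b * b') := by
  have hb'W := fun W hW => ApproxAt.mem h𝒲 hw hb' (W := W) hW
  obtain ⟨a, ha, h⟩ := hb
  obtain ⟨a', ha', h'⟩ := hb'
  refine ⟨a * a', V.mul_mem _ _ ha ha', fun W hW => ?_⟩
  have : b * b' - ι (a * a') = (b - ι a) * b' + ι a * (b' - ι a') := by rw [map_mul]; ring
  rw [this]
  refine Valuation.map_add_le _ ?_ ?_
  · rw [map_mul]
    calc W.valuation (b - ι a) * W.valuation b' ≤ W.valuation (ι w) ^ n * 1 :=
          mul_le_mul' (h W hW) ((ValuationSubring.valuation_le_one_iff _ _).2 (hb'W W hW))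
      _ = _ := mul_one _
  · rw [map_mul]
    calc W.valuation (ι a) * W.valuation (b' - ι a') ≤ 1 * W.valuation (ι w) ^ n :=
          mul_le_mul' ((h𝒲 W hW).val_le_one ha) (h' W hW)
      _ = _ := one_mul _

theorem ApproxAt.pow {n : ℕ} {b : L} (hb : ApproxAt V w 𝒲 n b) (k : ℕ) :
    ApproxAt V w 𝒲 n (b ^ k) := by
  induction k with
  | zero => rw [pow_zero]; exact approx_one n
  | succ k ih => rw [pow_succ]; exact ApproxAt.mul h𝒲 hw ih hb

omit h𝒲 hw in
theorem ApproxAt.sum {n : ℕ} {κ : Type*} (s : Finset κ) (f : κ → L)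
    (hf : ∀ i ∈ s, ApproxAt V w 𝒲 n (f i)) : ApproxAt V w 𝒲 n (∑ i ∈ s, f i) := by
  classical
  induction s using Finset.induction_on with
  | empty => rw [Finset.sum_empty]; exact approx_zero n
  | insert i s hi ih =>
    rw [Finset.sum_insert hi]
    exact ApproxAt.add (hf i (Finset.mem_insert_self i s))
      (ih fun j hj => hf j (Finset.mem_insert_of_mem hj))

omit h𝒲 in
/-- multiplication by `w` gains one order -/
theorem ApproxAt.w_mul {n : ℕ} {b : L} (hb : ApproxAt V w 𝒲 n b) :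
    ApproxAt V w 𝒲 (n + 1) (ι w * b) := by
  obtain ⟨a, ha, h⟩ := hb
  refine ⟨w * a, V.mul_mem _ _ hw.mem ha, fun W hW => ?_⟩
  have : ι w * b - ι (w * a) = ι w * (b - ι a) := by rw [map_mul]; ring
  rw [this, map_mul, pow_succ, mul_comm]
  exact mul_le_mul' (h W hW) le_rfl

/-- inverses of simultaneous units -/
theorem ApproxAt.inv {n : ℕ} (hn : 1 ≤ n) {b : L} (hb : ApproxAt V w 𝒲 n b)
    (hne : 𝒲.Nonempty) (hu : ∀ W ∈ 𝒲, W.valuation b = 1) : ApproxAt V w 𝒲 n b⁻¹ := by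
  obtain ⟨a, ha, h⟩ := hb
  -- `a` is a unit of `V`
  have hlt : ∀ W ∈ 𝒲, W.valuation (b - ι a) < 1 := fun W hW =>
    (h W hW).trans_lt (lt_of_le_of_lt
      (pow_le_pow_of_le_one zero_le ((h𝒲 W hW).val_w_lt_one hw).le hn)
      (by rw [pow_one]; exact (h𝒲 W hW).val_w_lt_one hw))
  have hva : ∀ W ∈ 𝒲, W.valuation (ι a) = 1 := by
    intro W hW
    have e : ι a = b + -(b - ι a) := by ring
    rw [e, Valuation.map_add_eq_of_lt_left, hu W hW]
    rw [Valuation.map_neg, hu W hW]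
    exact hlt W hW
  obtain ⟨W₀, hW₀⟩ := hne
  have ha' : a⁻¹ ∈ V := (h𝒲 W₀ hW₀).inv_mem_of_val_eq_one (hva W₀ hW₀)
  have hb0 : b ≠ 0 := by
    intro hb0
    have := hu W₀ hW₀
    rw [hb0, map_zero] at this
    exact zero_ne_one this
  have ha0 : ι a ≠ 0 := by
    intro h0
    have := hva W₀ hW₀
    rw [h0, map_zero] at this
    exact zero_ne_one this
  refine ⟨a⁻¹, ha', fun W hW => ?_⟩
  have e : b⁻¹ - ι a⁻¹ = -(b - ι a) * (b⁻¹ * (ι a)⁻¹) := by
    rw [map_inv₀]
    field_simp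
    ring
  rw [e, map_mul, map_mul, map_inv₀, map_inv₀, hu W hW, hva W hW, inv_one, mul_one, mul_one,
    Valuation.map_neg]
  exact h W hW

/-- division by `w`: it suffices that `b ∈ w W₀` for ONE `W₀ ∈ 𝒲` -/
theorem ApproxAt.div_w {n : ℕ} {b : L} (hb : ApproxAt V w 𝒲 (n + 1) b)
    {W₀ : ValuationSubring L} (hW₀ : W₀ ∈ 𝒲) (hb₀ : W₀.valuation b ≤ W₀.valuation (ι w)) :
    ApproxAt V w 𝒲 n (b * (ι w)⁻¹) := by
  obtain ⟨a, ha, h⟩ := hb
  have hlt : W₀.valuation (ι a) < 1 := by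
    have e : ι a = b + -(b - ι a) := by ring
    rw [e]
    refine Valuation.map_add_lt _ (hb₀.trans_lt ((h𝒲 W₀ hW₀).val_w_lt_one hw)) ?_
    rw [Valuation.map_neg]
    refine (h W₀ hW₀).trans_lt ?_
    calc W₀.valuation (ι w) ^ (n + 1) ≤ W₀.valuation (ι w) ^ 1 :=
          pow_le_pow_of_le_one zero_le ((h𝒲 W₀ hW₀).val_w_lt_one hw).le (by omega)
      _ = W₀.valuation (ι w) := pow_one _
      _ < 1 := (h𝒲 W₀ hW₀).val_w_lt_one hw
  have ha' : a * w⁻¹ ∈ V := by
    refine hw.mul_inv_mem ha ?_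
    by_cases ha0 : a = 0
    · exact Or.inl ha0
    · exact Or.inr fun hinv => absurd ((h𝒲 W₀ hW₀).val_eq_one ha0 ha hinv) hlt.ne
  refine ⟨a * w⁻¹, ha', fun W hW => ?_⟩
  have e : b * (ι w)⁻¹ - ι (a * w⁻¹) = (b - ι a) * (ι w)⁻¹ := by
    rw [map_mul, map_inv₀]; ring
  rw [e, map_mul, map_inv₀]
  rw [mul_inv_le_iff₀ ((h𝒲 W hW).val_w_pos hw), ← pow_succ]
  exact h W hW

omit h𝒲 hw in
theorem Approx.add {b b' : L} (hb : Approx V w 𝒲 b) (hb' : Approx V w 𝒲 b') :
    Approx V w 𝒲 (b + b') := fun n => (hb n).add (hb' n)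

theorem Approx.mul {b b' : L} (hb : Approx V w 𝒲 b) (hb' : Approx V w 𝒲 b') :
    Approx V w 𝒲 (b * b') := fun n => ApproxAt.mul h𝒲 hw (hb n) (hb' n)

theorem Approx.mem {b : L} (hb : Approx V w 𝒲 b) {W : ValuationSubring L} (hW : W ∈ 𝒲) :
    b ∈ W := ApproxAt.mem h𝒲 hw (hb 0) hW

theorem Approx.div_w {b : L} (hb : Approx V w 𝒲 b)
    {W₀ : ValuationSubring L} (hW₀ : W₀ ∈ 𝒲) (hb₀ : W₀.valuation b ≤ W₀.valuation (ι w)) :
    Approx V w 𝒲 (b * (ι w)⁻¹) := fun n => ApproxAt.div_w h𝒲 hw (hb (n + 1)) hW₀ hb₀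

omit h𝒲 hw in
variable (V w 𝒲) in
/-- `D[1/w]`, where `D` is the ring of approximable elements. -/
def approxLoc : Set L := {b | ∃ k : ℕ, Approx V w 𝒲 (ι w ^ k * b)}

/-- `D[1/w]` as an `F`-subalgebra of `L`. -/
def approxAlg : Subalgebra F L where
  carrier := approxLoc V w 𝒲
  mul_mem' := by
    rintro b b' ⟨k, hk⟩ ⟨k', hk'⟩
    refine ⟨k + k', ?_⟩
    have : ι w ^ (k + k') * (b * b') = (ι w ^ k * b) * (ι w ^ k' * b') := by
      rw [pow_add]; ring
    rw [this]
    exact Approx.mul h𝒲 hw hk hk'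
  add_mem' := by
    rintro b b' ⟨k, hk⟩ ⟨k', hk'⟩
    refine ⟨k + k', ?_⟩
    have : ι w ^ (k + k') * (b + b') =
        ι (w ^ k') * (ι w ^ k * b) + ι (w ^ k) * (ι w ^ k' * b') := by
      rw [pow_add, map_pow, map_pow]; ring
    rw [this]
    exact Approx.add (Approx.mul h𝒲 hw (approx_algebraMap (hw.pow_mem k')) hk)
      (Approx.mul h𝒲 hw (approx_algebraMap (hw.pow_mem k)) hk')
  algebraMap_mem' := by
    intro f
    obtain ⟨k, hk⟩ := hw.exists_mul_pow_mem f
    refine ⟨k, ?_⟩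
    have : ι w ^ k * ι f = ι (f * w ^ k) := by
      rw [map_mul, map_pow]; ring
    rw [this]
    exact approx_algebraMap hk

theorem mem_approxAlg {b : L} :
    b ∈ approxAlg h𝒲 hw ↔ ∃ k : ℕ, Approx V w 𝒲 (ι w ^ k * b) := Iff.rfl

/-- **Key lemma.**  If `L = F[y_i]` with all `y_i` approximable, then every `W ∈ 𝒲` is the set of
approximable elements. -/
theorem mem_iff_approx {κ : Type*} (y : κ → L) (hy : ∀ i, Approx V w 𝒲 (y i))
    (hgen : Algebra.adjoin F (Set.range y) = ⊤) {W : ValuationSubring L} (hW : W ∈ 𝒲) (b : L) :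
    b ∈ W ↔ Approx V w 𝒲 b := by
  refine ⟨fun hb => ?_, fun hb => Approx.mem h𝒲 hw hb hW⟩
  have htop : approxAlg h𝒲 hw = ⊤ := by
    rw [eq_top_iff, ← hgen]
    refine Algebra.adjoin_le ?_
    rintro _ ⟨i, rfl⟩
    exact ⟨0, by rw [pow_zero, one_mul]; exact hy i⟩
  have hbE : b ∈ approxAlg h𝒲 hw := by rw [htop]; exact Algebra.mem_top
  obtain ⟨k, hk⟩ := hbE
  induction k with
  | zero => rwa [pow_zero, one_mul] at hk
  | succ k ih =>
    apply ih
    have hle : W.valuation (ι w ^ (k + 1) * b) ≤ W.valuation (ι w) := by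
      rw [map_mul, map_pow, pow_succ, mul_assoc, mul_comm]
      calc W.valuation (ι w) * W.valuation b * W.valuation (ι w) ^ k
          ≤ W.valuation (ι w) * 1 * 1 :=
            mul_le_mul' (mul_le_mul' le_rfl ((ValuationSubring.valuation_le_one_iff _ _).2 hb))
              ((h𝒲 W hW).val_w_pow_le_one hw k)
        _ = _ := by rw [mul_one, mul_one]
    have := Approx.div_w h𝒲 hw hk hW hle
    have e : ι w ^ (k + 1) * b * (ι w)⁻¹ = ι w ^ k * b := by
      have hne : ι w ≠ 0 := (map_ne_zero _).2 hw.ne_zero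
      rw [pow_succ]
      field_simp
    rwa [e] at this

end Approx

end Fermat.Agent.A2.H373
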