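import Fermat.Agent.A2.H373.SplitBasic

/-!
# A2 / route G, obligation C2 (COVER-SPLIT), part 2: normalised Kummer generators  (helper373)

`V` discrete with uniformiser `w`, `m` a unit of `V`, `L = F[y_i]` with `y_i ^ m ∈ F`.
A valuation subring `W` of `L` over `V` is *normalised* for `y` if `y_i ≡ 1 mod 𝔪_W` for all `i`.

* `approx_of_pow_eq`   : a normalised generator is approximable by `V` to any order;
* `eq_of_normalized`   : two valuation subrings over `V` normalised for the same `y` are EQUAL;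
* `exists_sub_val_le_of_normalized` : `W = V + wⁿ W` (residue degree `1`);
* `val_le_w_of_normalized` : `𝔪_W = w W` (ramification index `1`).
-/

set_option autoImplicit false

namespace Fermat.Agent.A2.H373

variable {F L : Type*} [Field F] [Field L] [Algebra F L]

local notation "ι" => algebraMap F L

section Units

variable {W : ValuationSubring L}

theorem val_eq_one_of_sub_one {y : L} (hy : W.valuation (y - 1) < 1) : W.valuation y = 1 := by
  have : y = 1 + (y - 1) := by ring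
  rw [this]
  exact Valuation.map_one_add_of_lt _ hy

theorem val_pow_sub_one_lt {y : L} (hy : W.valuation (y - 1) < 1) (k : ℕ) :
    W.valuation (y ^ k - 1) < 1 := by
  rw [← mul_geom_sum, map_mul]
  have h1 : W.valuation (∑ i ∈ Finset.range k, y ^ i) ≤ 1 := by
    refine Valuation.map_sum_le _ fun i _ => ?_
    rw [map_pow, val_eq_one_of_sub_one hy, one_pow]
  calc W.valuation (y - 1) * W.valuation (∑ i ∈ Finset.range k, y ^ i)
      ≤ W.valuation (y - 1) * 1 := mul_le_mul' le_rfl h1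
    _ = W.valuation (y - 1) := mul_one _
    _ < 1 := hy

theorem val_geom_sum_sub_lt {y : L} (hy : W.valuation (y - 1) < 1) (m : ℕ) :
    W.valuation (∑ i ∈ Finset.range m, y ^ i - (m : L)) < 1 := by
  have : ∑ i ∈ Finset.range m, y ^ i - (m : L) = ∑ i ∈ Finset.range m, (y ^ i - 1) := by
    rw [Finset.sum_sub_distrib]
    simp
  rw [this]
  exact Valuation.map_sum_lt _ one_ne_zero fun i _ => val_pow_sub_one_lt hy i

variable {V : ValuationSubring F}

theorem Over.val_natCast_eq_one (h : Over V W) {m : ℕ} (hm0 : (m : F) ≠ 0)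
    (hmV : (m : F)⁻¹ ∈ V) : W.valuation (m : L) = 1 := by
  rw [← map_natCast (algebraMap F L)]
  exact h.val_eq_one hm0 (natCast_mem V m) hmV

theorem Over.val_geom_sum_eq_one (h : Over V W) {m : ℕ} (hm0 : (m : F) ≠ 0)
    (hmV : (m : F)⁻¹ ∈ V) {y : L} (hy : W.valuation (y - 1) < 1) :
    W.valuation (∑ i ∈ Finset.range m, y ^ i) = 1 := by
  have e : ∑ i ∈ Finset.range m, y ^ i = (m : L) + (∑ i ∈ Finset.range m, y ^ i - (m : L)) := by
    ring
  rw [e, Valuation.map_add_eq_of_lt_left, h.val_natCast_eq_one hm0 hmV]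
  rw [h.val_natCast_eq_one hm0 hmV]
  exact val_geom_sum_sub_lt hy m

/-- an `m`-th root of unity `≡ 1` is `1` (`m` a unit of `V`) -/
theorem Over.eq_one_of_pow_eq_one (h : Over V W) {m : ℕ} (hm0 : (m : F) ≠ 0)
    (hmV : (m : F)⁻¹ ∈ V) {ξ : L} (hξ : ξ ^ m = 1) (hξ1 : W.valuation (ξ - 1) < 1) : ξ = 1 := by
  by_contra hne
  have h1 : (ξ - 1) * ∑ i ∈ Finset.range m, ξ ^ i = 0 := by
    rw [mul_geom_sum, hξ, sub_self]
  have h2 : ∑ i ∈ Finset.range m, ξ ^ i = 0 := by
    rcases mul_eq_zero.1 h1 with h | h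
    · exact absurd (sub_eq_zero.1 h) hne
    · exact h
  have h3 := h.val_geom_sum_eq_one hm0 hmV hξ1
  rw [h2, map_zero] at h3
  exact zero_ne_one h3

end Units

section Normalized

variable {V : ValuationSubring F} {w : F} {𝒲 : Set (ValuationSubring L)}

/-- **A normalised Kummer generator is approximable.** -/
theorem approx_of_pow_eq (h𝒲 : ∀ W ∈ 𝒲, Over V W) (hw : IsUnif V w) (hne : 𝒲.Nonempty)
    {m : ℕ} (hm0 : (m : F) ≠ 0) (hmV : (m : F)⁻¹ ∈ V) {y : L} {h : F} (hy : y ^ m = ι h)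
    (hy1 : ∀ W ∈ 𝒲, W.valuation (y - 1) < 1) : Approx V w 𝒲 y := by
  obtain ⟨W₀, hW₀⟩ := hne
  set S : L := ∑ i ∈ Finset.range m, y ^ i with hS
  have hSu : ∀ W ∈ 𝒲, W.valuation S = 1 := fun W hW =>
    (h𝒲 W hW).val_geom_sum_eq_one hm0 hmV (hy1 W hW)
  have hS0 : S ≠ 0 := by
    intro h0
    have := hSu W₀ hW₀
    rw [h0, map_zero] at this
    exact zero_ne_one this
  have hyS : (y - 1) * S = ι (h - 1) := by
    rw [hS, mul_geom_sum, hy, map_sub, map_one]
  -- `t = h - 1` is a nonunit of `V`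
  have ht : W₀.valuation (ι (h - 1)) < 1 := by
    rw [← hyS, map_mul, hSu W₀ hW₀, mul_one]
    exact hy1 W₀ hW₀
  have htV : h - 1 ∈ V := ((h𝒲 W₀ hW₀).val_le_one_iff _).1 ht.le
  have ht' : (h - 1) * w⁻¹ ∈ V := by
    refine hw.mul_inv_mem htV ?_
    by_cases h0 : h - 1 = 0
    · exact Or.inl h0
    · exact Or.inr fun hinv => absurd ((h𝒲 W₀ hW₀).val_eq_one h0 htV hinv) ht.ne
  set t' : F := (h - 1) * w⁻¹ with ht'def
  have hwt : ι w * ι t' = ι (h - 1) := by
    rw [← map_mul, ht'def, mul_comm w, mul_assoc, inv_mul_cancel₀ hw.ne_zero, mul_one]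
  have hyeq : y = 1 + ι w * (ι t' * S⁻¹) := by
    have : y - 1 = ι w * (ι t' * S⁻¹) := by
      rw [← mul_assoc, hwt, ← hyS, mul_assoc, mul_inv_cancel₀ hS0, mul_one]
    rw [← this]
    ring
  -- induction
  have key : ∀ n : ℕ, ApproxAt V w 𝒲 (n + 1) y := by
    intro n
    induction n with
    | zero =>
      have h0 : ApproxAt V w 𝒲 0 (ι t' * S⁻¹) := by
        refine ⟨0, V.zero_mem, fun W hW => ?_⟩
        rw [map_zero, sub_zero, pow_zero, map_mul, map_inv₀, hSu W hW, inv_one, mul_one]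
        exact (h𝒲 W hW).val_le_one ht'
      have h1 := ApproxAt.w_mul hw h0
      rw [hyeq]
      exact ApproxAt.add (approx_one _) h1
    | succ n ih =>
      have hSn : ApproxAt V w 𝒲 (n + 1) S :=
        ApproxAt.sum _ _ fun i _ => ApproxAt.pow h𝒲 hw ih i
      have hSinv : ApproxAt V w 𝒲 (n + 1) S⁻¹ :=
        ApproxAt.inv h𝒲 hw (by omega) hSn ⟨W₀, hW₀⟩ hSu
      have h2 : ApproxAt V w 𝒲 (n + 1) (ι t' * S⁻¹) :=
        ApproxAt.mul h𝒲 hw (approxAt_algebraMap ht' _) hSinv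
      have h3 := ApproxAt.w_mul hw h2
      rw [hyeq]
      exact ApproxAt.add (approx_one _) h3
  intro n
  exact ApproxAt.mono h𝒲 hw (Nat.le_succ n) (key n)

variable {m : ℕ} {κ : Type*}

/-- **Uniqueness.**  Two valuation subrings of `L = F[y_i]` over `V` which are both normalised
for the Kummer generators `y_i` are equal. -/
theorem eq_of_normalized (hw : IsUnif V w) (hm0 : (m : F) ≠ 0) (hmV : (m : F)⁻¹ ∈ V)
    (y : κ → L) (hpow : ∀ i, ∃ h : F, y i ^ m = ι h)
    (hgen : Algebra.adjoin F (Set.range y) = ⊤)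
    {W₁ W₂ : ValuationSubring L} (h₁ : Over V W₁) (h₂ : Over V W₂)
    (hy₁ : ∀ i, W₁.valuation (y i - 1) < 1) (hy₂ : ∀ i, W₂.valuation (y i - 1) < 1) :
    W₁ = W₂ := by
  set 𝒲 : Set (ValuationSubring L) := {W₁, W₂} with h𝒲def
  have hm₁ : W₁ ∈ 𝒲 := Set.mem_insert _ _
  have hm₂ : W₂ ∈ 𝒲 := Set.mem_insert_of_mem _ (Set.mem_singleton _)
  have h𝒲 : ∀ W ∈ 𝒲, Over V W := by
    intro W hW
    rcases Set.mem_insert_iff.1 hW with rfl | hW
    · exact h₁
    · rw [Set.mem_singleton_iff.1 hW]; exact h₂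
  have hy : ∀ i, Approx V w 𝒲 (y i) := by
    intro i
    obtain ⟨h, hh⟩ := hpow i
    refine approx_of_pow_eq h𝒲 hw ⟨W₁, hm₁⟩ hm0 hmV hh ?_
    intro W hW
    rcases Set.mem_insert_iff.1 hW with rfl | hW
    · exact hy₁ i
    · rw [Set.mem_singleton_iff.1 hW]; exact hy₂ i
  ext b
  rw [mem_iff_approx h𝒲 hw y hy hgen hm₁ b, mem_iff_approx h𝒲 hw y hy hgen hm₂ b]

/-- every element of a normalised `W` is approximable by `V` -/
theorem approx_of_normalized (hw : IsUnif V w) (hm0 : (m : F) ≠ 0) (hmV : (m : F)⁻¹ ∈ V)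
    (y : κ → L) (hpow : ∀ i, ∃ h : F, y i ^ m = ι h)
    (hgen : Algebra.adjoin F (Set.range y) = ⊤)
    {W : ValuationSubring L} (hW : Over V W) (hy : ∀ i, W.valuation (y i - 1) < 1)
    {b : L} (hb : b ∈ W) : Approx V w {W} b := by
  have h𝒲 : ∀ W' ∈ ({W} : Set (ValuationSubring L)), Over V W' := by
    intro W' hW'
    rw [Set.mem_singleton_iff.1 hW']; exact hW
  have hyA : ∀ i, Approx V w {W} (y i) := by
    intro i
    obtain ⟨h, hh⟩ := hpow i
    refine approx_of_pow_eq h𝒲 hw ⟨W, Set.mem_singleton _⟩ hm0 hmV hh ?_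
    intro W' hW'
    rw [Set.mem_singleton_iff.1 hW']; exact hy i
  exact (mem_iff_approx h𝒲 hw y hyA hgen (Set.mem_singleton _) b).1 hb

/-- **Residue degree one** (strong form): `W = V + wⁿ W` for all `n`. -/
theorem exists_sub_val_le_of_normalized (hw : IsUnif V w) (hm0 : (m : F) ≠ 0)
    (hmV : (m : F)⁻¹ ∈ V) (y : κ → L) (hpow : ∀ i, ∃ h : F, y i ^ m = ι h)
    (hgen : Algebra.adjoin F (Set.range y) = ⊤)
    {W : ValuationSubring L} (hW : Over V W) (hy : ∀ i, W.valuation (y i - 1) < 1)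
    {b : L} (hb : b ∈ W) (n : ℕ) :
    ∃ a ∈ V, W.valuation (b - ι a) ≤ W.valuation (ι w) ^ n := by
  obtain ⟨a, ha, h⟩ := approx_of_normalized hw hm0 hmV y hpow hgen hW hy hb n
  exact ⟨a, ha, h W (Set.mem_singleton _)⟩

/-- **Residue degree one**: `W = V + 𝔪_W`. -/
theorem exists_sub_val_lt_of_normalized (hw : IsUnif V w) (hm0 : (m : F) ≠ 0)
    (hmV : (m : F)⁻¹ ∈ V) (y : κ → L) (hpow : ∀ i, ∃ h : F, y i ^ m = ι h)
    (hgen : Algebra.adjoin F (Set.range y) = ⊤)
    {W : ValuationSubring L} (hW : Over V W) (hy : ∀ i, W.valuation (y i - 1) < 1)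
    {b : L} (hb : b ∈ W) : ∃ a ∈ V, W.valuation (b - ι a) < 1 := by
  obtain ⟨a, ha, h⟩ := exists_sub_val_le_of_normalized hw hm0 hmV y hpow hgen hW hy hb 1
  refine ⟨a, ha, h.trans_lt ?_⟩
  rw [pow_one]
  exact hW.val_w_lt_one hw

/-- **Ramification index one**: `𝔪_W = w W`. -/
theorem val_le_w_of_normalized (hw : IsUnif V w) (hm0 : (m : F) ≠ 0)
    (hmV : (m : F)⁻¹ ∈ V) (y : κ → L) (hpow : ∀ i, ∃ h : F, y i ^ m = ι h)
    (hgen : Algebra.adjoin F (Set.range y) = ⊤)
    {W : ValuationSubring L} (hW : Over V W) (hy : ∀ i, W.valuation (y i - 1) < 1)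
    {b : L} (hb : W.valuation b < 1) : W.valuation b ≤ W.valuation (ι w) := by
  have hbW : b ∈ W := (ValuationSubring.valuation_le_one_iff _ _).1 hb.le
  obtain ⟨a, ha, h⟩ := exists_sub_val_le_of_normalized hw hm0 hmV y hpow hgen hW hy hbW 1
  rw [pow_one] at h
  have ha1 : W.valuation (ι a) < 1 := by
    have e : ι a = b + -(b - ι a) := by ring
    rw [e]
    refine Valuation.map_add_lt _ hb ?_
    rw [Valuation.map_neg]
    exact h.trans_lt (hW.val_w_lt_one hw)
  have e : b = (b - ι a) + ι a := by ring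
  rw [e]
  exact Valuation.map_add_le _ h (hW.val_le_w hw ha1)

end Normalized

end Fermat.Agent.A2.H373
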