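import Fermat.Agent.A2.H733.CountLeafMain
import Fermat.Agent.S35.H891.FrobAsm

/-!
# S35, cell FROB — leaf SURJ in the corrected (`U`) form (helper373)

`SurjConclusion L w x` (of `S35/H891/FrobAsm.lean`): modulo every sheet `W` of the cover `L`, the
charts of `L` are generated by the charts of `F`.

* `surj_chart` : one chart, from residue degree one (`SheetsConclusion.resdeg`), the two sheets of
  the base (`H733.exists_base_sheets`) and normality of the components
  (`H733.exists_sub_mem_centreOn`);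
* `surjConclusion_of_sheets` : `SurjConclusion` from `BaseConclusion` and `SheetsConclusion`
  (no Kummer hypothesis at all);
* `SurjLeafU`, `surjLeafU` : the leaf for Kummer-split covers (`IsKummerSplitU`), unconditional.

NOTE: the v1 statement `S35.H891.SurjLeaf` (with `IsKummerSplit`, i.e. `SplitAt` with its junk
witness `u = 0`) is false; the `U` form is the correct one.
-/

set_option autoImplicit false
set_option linter.style.haveILetI false
set_option linter.unusedSectionVars false

namespace Fermat.Agent.A2.H373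

open Fermat.Agent.A2
open Fermat.Agent.A2.H12 (IsSheet SSCtx BaseConclusion SheetsConclusion IsKummerSplitU)
open Fermat.Agent.S18.H138 (chart mem_chart)
open Fermat.Agent.S35.H891 (SurjConclusion)

section Chart

variable {R E F : Type} [CommRing R] [IsDomain R] [IsDiscreteValuationRing R]
  [Field E] [CharZero E] [Algebra R E] [IsFractionRing R E]
  [Field F] [Algebra E F] [Algebra R F] [IsScalarTower R E F]

/-- **SURJ for one chart.** -/
theorem surj_chart (w : R) (hw : Irreducible w) (t : F) (ht : Transcendental E t)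
    [FiniteDimensional (IntermediateField.adjoin E ({t} : Set F)) F]
    (B : Subalgebra R F)
    (hB : ∀ f : F, f ∈ B ↔ IsIntegral (Algebra.adjoin R ({t} : Set F)) f) (c : SSChart w B)
    (hdisc : ∀ V : ValuationSubring F, IsSheet w t V → ∀ f : F, f ≠ 0 →
      ∃ (n : ℤ) (u : F), u ∈ V ∧ u⁻¹ ∈ V ∧ f = algebraMap R F w ^ n * u)
    (L : Type) [Field L] [Algebra F L] [Algebra R L] [IsScalarTower R F L]
    (W : ValuationSubring L) (hW : IsSheet w (algebraMap F L t) W)
    (hres : ∀ b ∈ W, ∃ c : F, b - algebraMap F L c ∈ W.nonunits) :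
    ∀ b ∈ chart R ({algebraMap F L t} : Set L), ∃ c ∈ chart R ({t} : Set F),
      b - algebraMap F L c ∈ W.nonunits := by
  intro b hb
  obtain ⟨V₁, V₂, hS₁, hS₂, hV₁, hV₂, hcls, hfr₁, hfr₂⟩ :=
    H733.exists_base_sheets w hw t ht B hB c hdisc
  haveI := c.prime₁
  haveI := c.prime₂
  haveI := c.normal₁
  haveI := c.normal₂
  have hV : IsSheet w t (W.comap (algebraMap F L)) := H12.IsSheet.comap_algebraMap hW
  have key : ∀ (p : Ideal B) [p.IsPrime] [IsIntegrallyClosed (B ⧸ p)],
      (∀ b : B, (b : F) ∈ (W.comap (algebraMap F L)).nonunits ↔ b ∈ p) →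
      (∀ f ∈ W.comap (algebraMap F L), ∃ a s : B, s ∉ p ∧ f * (s : F) = a) →
      ∃ c ∈ chart R ({t} : Set F), b - algebraMap F L c ∈ W.nonunits := by
    intro p _ _ hcentre hfrac
    obtain ⟨b₀, hb₀⟩ := H733.exists_sub_mem_centreOn hB hW p hcentre hfrac hres ⟨b, hb⟩
    rw [mem_centreOn] at hb₀
    exact ⟨(b₀ : F), (hB _).1 b₀.2, hb₀⟩
  rcases hcls _ hV with h | h
  · exact key c.p₁ (by rw [h]; exact hV₁) (by rw [h]; exact hfr₁)
  · exact key c.p₂ (by rw [h]; exact hV₂) (by rw [h]; exact hfr₂)

end Chart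

section Leaf

variable {R E F : Type} [CommRing R] [IsDomain R] [IsDiscreteValuationRing R]
  [HenselianLocalRing R] [IsAlgClosed (IsLocalRing.ResidueField R)]
  [Field E] [CharZero E] [Algebra R E] [IsFractionRing R E]
  [Field F] [Algebra E F] [Algebra R F] [IsScalarTower R E F]

/-- **SURJ** from the conclusions of BASE and SHEETS. -/
theorem surjConclusion_of_sheets {w : R} {q m : ℕ} {x : F} {Bf Bi : Subalgebra R F}
    {τ : F ≃+* F} {τE : E ≃+* E} {τR : R ≃+* R} (ctx : SSCtx w q m x Bf Bi τ τE τR)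
    (hbase : BaseConclusion w x τ)
    (L : Type) [Field L] [Algebra F L] [Algebra R L] [IsScalarTower R F L]
    (hS : SheetsConclusion L w x) : SurjConclusion L w x := by
  haveI := ctx.fin
  have hx0 : x ≠ 0 := by
    rintro rfl
    exact ctx.transc (isAlgebraic_zero)
  have hxL0 : algebraMap F L x ≠ 0 := (map_ne_zero (algebraMap F L)).2 hx0
  obtain ⟨cf⟩ := ctx.cf
  obtain ⟨ci⟩ := ctx.ci
  intro W hW
  refine ⟨?_, ?_⟩
  · exact surj_chart w ctx.irr x ctx.transc Bf ctx.hBf cf hbase.discrete L W hW (hS.resdeg W hW)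
  · have hti : Transcendental E x⁻¹ := by
      intro h
      apply ctx.transc
      have := h.inv
      rwa [inv_inv] at this
    haveI hfi : FiniteDimensional (IntermediateField.adjoin E ({x⁻¹} : Set F)) F := by
      rw [H733.adjoin_inv_eq_adjoin]
      exact ctx.fin
    have hinvL : algebraMap F L x⁻¹ = (algebraMap F L x)⁻¹ := map_inv₀ _ _
    have hWi : IsSheet w (algebraMap F L x⁻¹) W := by
      rw [hinvL]
      exact (H733.isSheet_inv_iff w hxL0 W).2 hW
    have h := surj_chart w ctx.irr x⁻¹ hti Bi ctx.hBi ci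
      (fun V hV => hbase.discrete V ((H733.isSheet_inv_iff w hx0 V).1 hV)) L W hWi
      (hS.resdeg W hW)
    rw [hinvL] at h
    exact h

end Leaf

/-- Leaf **SURJ**, corrected (`U`) form: `S35.H891.SurjLeaf` with `IsKummerSplitU`. -/
def SurjLeafU : Prop :=
  ∀ {R E F : Type} [CommRing R] [IsDomain R] [IsDiscreteValuationRing R]
    [HenselianLocalRing R] [IsAlgClosed (IsLocalRing.ResidueField R)]
    [Field E] [CharZero E] [Algebra R E] [IsFractionRing R E]
    [Field F] [Algebra E F] [Algebra R F] [IsScalarTower R E F]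
    (w : R) (q m : ℕ) (x : F) (Bf Bi : Subalgebra R F)
    (τ : F ≃+* F) (τE : E ≃+* E) (τR : R ≃+* R),
    SSCtx w q m x Bf Bi τ τE τR →
    ∀ (L : Type) [Field L] [Algebra F L] [Algebra R L] [IsScalarTower R F L],
      IsKummerSplitU L w x m → SurjConclusion L w x

/-- **Leaf SURJ (corrected form), unconditional.** -/
theorem surjLeafU : SurjLeafU := by
  intro R E F _ _ _ _ _ _ _ _ _ _ _ _ _ w q m x Bf Bi τ τE τR ctx L _ _ _ _ hK
  exact surjConclusion_of_sheets ctx (H643.baseLeaf w q m x Bf Bi τ τE τR ctx) L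
    (H733.sheetsLeafU w q m x Bf Bi τ τE τR ctx L hK)

end Fermat.Agent.A2.H373
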